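import Fermat.Agent.S43.CompEis.H60_Defs
import Fermat.Agent.NEB.H29_Inv
import Fermat.Agent.RED.H36_RM
import Fermat.Agent.S36.NU.H82_Deg2
import Fermat.Agent.RED.H51_NDFinal
attribute [local instance 10000] HahnSeries.powerSeriesAlgebra

/-!
# S43, leaf COMP-EIS / DESC (helper57)

Descent of the divisibility of the orders of a reduced function from level `N' = r N`
(`r = 2, 3`) to level `N`, at a place `A` of residue characteristic `q ≠ r`.

* `ramificationIndexAlong_le` : `e(w | v) ≤ [L : E]` for function fields over an algebraically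
  closed field;
* `dvd_ord_of_dvd_above` : if `p > [L : E]` is prime and `p ∣ ord_w (φ g)` for all places `w` of
  `L`, then `p ∣ ord_v g` for all places `v` of `E`;
* `dvd_ord_intermediate` : the same for two intermediate fields `K₁ ≤ K₂`.
-/

set_option autoImplicit false
set_option linter.style.haveILetI false
set_option linter.unusedSectionVars false
set_option synthInstance.maxHeartbeats 400000
set_option maxHeartbeats 1000000

noncomputable section

open AlgebraicCurve ModularCurve

namespace Fermat.Agent.S43.CompEis.H57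

open Fermat.Agent.RED Fermat.Agent.NEB.H14 Fermat.Agent.NEB.H29

section Abs

variable {k E L : Type} [Field k] [Field E] [Field L] [Algebra k E] [Algebra k L] [IsAlgClosed k]

/-- `e(w | v) ≤ [L : E]`. -/
theorem ramificationIndexAlong_le (hE : IsFF k E) (hL : IsFF k L) (φ : E →ₐ[k] L)
    (w : Place k L) :
    Place.ramificationIndexAlong φ w
      ≤ @Module.finrank E L _ _ (algebraAlong φ).toModule := by
  classical
  haveI : HasPrincipalDivisors k L := hasPD hL
  have hFI := Fermat.Agent.RED.H51.stmt_FFB_fundamental k E L hE hL φ (isIntegral_hom hE hL φ)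
    inferInstance
  have hdegE := Fermat.Agent.RED.H51.stmt_FFB_deg k E hE
  have hdegL := Fermat.Agent.RED.H51.stmt_FFB_deg k L hL
  letI := algebraAlong φ
  haveI := isScalarTower_along φ
  haveI := isIntegral_along φ (isIntegral_hom hE hL φ)
  haveI : FundamentalIdentity k E L := hFI
  have h1 := FundamentalIdentity.sum_ramificationIndex_mul_deg (K := k) (F := E) (F' := L)
    (w.restrict E)
  rw [hdegE, Nat.cast_one, mul_one] at h1
  have h2 : ((w.ramificationIndex E : ℕ) : ℤ) * (w.deg : ℤ)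
      ≤ ∑ w' ∈ (w.restrict E).fiber L, ((w'.ramificationIndex E : ℕ) : ℤ) * (w'.deg : ℤ) :=
    Finset.single_le_sum (f := fun w' : Place k L => ((w'.ramificationIndex E : ℕ) : ℤ) * (w'.deg : ℤ))
      (fun w' _ => mul_nonneg (Int.natCast_nonneg _) (Int.natCast_nonneg _))
      (Place.restrict_mem_fiber w)
  rw [h1, hdegL, Nat.cast_one, mul_one] at h2
  have h3 : (w.ramificationIndex E : ℕ) ≤ Module.finrank E L := by exact_mod_cast h2
  exact h3

/-- Divisibility of all orders by a prime `p > [L : E]` descends from `L` to `E`. -/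
theorem dvd_ord_of_dvd_above (hE : IsFF k E) (hL : IsFF k L) (φ : E →ₐ[k] L)
    (p : ℕ) (hp : p.Prime)
    (hdeg : @Module.finrank E L _ _ (algebraAlong φ).toModule < p)
    (g : E) (h : ∀ w : Place k L, (p : ℤ) ∣ w.ord (φ g)) (v : Place k E) :
    (p : ℤ) ∣ v.ord g := by
  obtain ⟨w, rfl⟩ := exists_place_above hE hL φ v
  have h1 := Place.ord_restrictAlong φ (isIntegral_hom hE hL φ) w g
  have h2 := h w
  rw [h1] at h2
  have he := ramificationIndexAlong_le hE hL φ w
  have hpos : 0 < Place.ramificationIndexAlong φ w := by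
    letI := algebraAlong φ
    haveI := isScalarTower_along φ
    haveI := isIntegral_along φ (isIntegral_hom hE hL φ)
    exact w.ramificationIndex_pos (F := E)
  have hpZ : Prime (p : ℤ) := Nat.prime_iff_prime_int.mp hp
  rcases hpZ.dvd_or_dvd h2 with h3 | h3
  · exfalso
    have h4 : p ∣ Place.ramificationIndexAlong φ w := by exact_mod_cast h3
    have h5 := Nat.le_of_dvd hpos h4
    omega
  · exact h3

end Abs

section Inter

variable {k 𝕃 : Type} [Field k] [Field 𝕃] [Algebra k 𝕃] [IsAlgClosed k]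

/-- Descent of divisibility of orders for two intermediate fields `K₁ ≤ K₂`. -/
theorem dvd_ord_intermediate {K₁ K₂ : IntermediateField k 𝕃} (hle : K₁ ≤ K₂)
    (h₁ : IsFF k ↥K₁) (h₂ : IsFF k ↥K₂) (p : ℕ) (hp : p.Prime)
    (hdeg : K₁.relfinrank K₂ < p) (g₁ : ↥K₁) (g₂ : ↥K₂) (hg : (g₂ : 𝕃) = (g₁ : 𝕃))
    (h : ∀ Q' : Place k ↥K₂, (p : ℤ) ∣ Q'.ord g₂) (Q : Place k ↥K₁) :
    (p : ℤ) ∣ Q.ord g₁ := by
  have e : IntermediateField.inclusion hle g₁ = g₂ := Subtype.ext hg.symm
  refine dvd_ord_of_dvd_above h₁ h₂ (IntermediateField.inclusion hle) p hp ?_ g₁ ?_ Q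
  · rw [Fermat.Agent.RED.H51.finrank_along_inclusion hle]
    exact hdeg
  · intro w
    rw [e]
    exact h w

end Inter

/-! ## The modular part -/

section Modular

open Fermat.Agent.BAD Fermat.Agent.S28.H73 Fermat.Agent.RED.H73

variable (A : ValuationSubring (AlgebraicClosure ℚ))

/-- The reduced function field of level `N`. -/
abbrev redN (N : ℕ) : IntermediateField (kV A) (LaurentSeries (kV A)) :=
  redField A (FNbar N) (hasScale_laurentBaseChange A N)

variable {A}

/-- The reduced fields of levels `M q` and `M` coincide (`q ∤ M`). -/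
theorem redN_mul_eq {q M : ℕ} (hq : q.Prime) (hqM : ¬ q ∣ M) [NeZero (M * q)]
    (hA : A.LiesOverPrime q) : redN A (M * q) = redN A M := by
  have hcop : IsCoprime (q : ℤ) (M : ℤ) :=
    Nat.isCoprime_iff_coprime.mpr ((Nat.Prime.coprime_iff_not_dvd hq).mpr hqM)
  obtain ⟨a, b, hab⟩ := hcop
  exact Fermat.Agent.BAD.H82.redField_eq_redField q M a b hab hq A hA

/-- The reduced field of a level prime to `q` is a function field. -/
theorem isFF_redN_of_not_dvd {q N : ℕ} [NeZero N] (hq : q.Prime) (hqN : ¬ q ∣ N)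
    (hA : A.LiesOverPrime q) : IsFF (kV A) ↥(redN A N) :=
  isFF_redField_bar N q hq hqN A hA

/-- Degree bound at levels prime to `q`. -/
theorem relfinrank_redN_le {q M r : ℕ} [NeZero M] [NeZero (M * r)] (hq : q.Prime)
    (hr : r.Prime) (hrq : r ≠ q) (hqM : ¬ q ∣ M) (hA : A.LiesOverPrime q) :
    (redN A M).relfinrank (redN A (M * r)) ≤ r + 1 := by
  have hqMr : ¬ q ∣ M * r := by
    intro h
    rcases (Nat.Prime.dvd_mul hq).mp h with h | h
    · exact hqM h
    · exact hrq ((Nat.prime_dvd_prime_iff_eq hq hr).mp h).symm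
  have h1 := Fermat.Agent.RED.H36.relfinrank_level_eq (N := M) (M := M * r) (Dvd.intro r rfl) hq
    hqMr A hA
  show (redField A (modularFunctionFieldBar M) (hasScale_laurentBaseChange A M)).relfinrank
    (redField A (modularFunctionFieldBar (M * r)) (hasScale_laurentBaseChange A (M * r))) ≤ r + 1
  rw [← h1]
  by_cases hrM : r ∣ M
  · rw [Fermat.Agent.S36.NU.H82.relfinrank_FM_FN_of_dvd r M hr hrM]
    exact Nat.le_succ r
  · rw [Fermat.Agent.BAD.H82.relfinrank_FM_FN r M hr hrM]

/-- **DESC**, for levels `N` with `q ^ 2 ∤ N`: the statement `Stmt_CE_Desc` of helper60 with the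
extra hypothesis `¬ q ^ 2 ∣ N` (no tameness hypothesis). -/
def Stmt_CE_Desc' : Prop :=
  ∀ (p : ℕ), p.Prime → 5 ≤ p → ∀ (q : ℕ), q.Prime →
    ∀ (N N' r : ℕ) [NeZero N] [NeZero N'], (r = 2 ∨ r = 3) → r ≠ q → N' = r * N →
    ¬ q ^ 2 ∣ N →
    ∀ A : ValuationSubring (AlgebraicClosure ℚ), A.LiesOverPrime q →
    ∀ (f : ↥(gaussV A N)) (f' : ↥(gaussV A N')),
      (((f' : ↥(gaussV A N')) : ↥(FNbar N')) : LaurentSeries (AlgebraicClosure ℚ)) =
        (((f : ↥(gaussV A N)) : ↥(FNbar N)) : LaurentSeries (AlgebraicClosure ℚ)) →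
      (∀ Q' : Place (kV A) ↥(redField A (FNbar N') (hasScale_laurentBaseChange A N')),
        (p : ℤ) ∣ Q'.ord (gaussRes A N' f')) →
      ∀ Q : Place (kV A) ↥(redField A (FNbar N) (hasScale_laurentBaseChange A N)),
        (p : ℤ) ∣ Q.ord (gaussRes A N f)

theorem not_dvd_mul_of_ne {q M r : ℕ} (hq : q.Prime) (hr : r.Prime) (hrq : r ≠ q)
    (hqM : ¬ q ∣ M) : ¬ q ∣ M * r := by
  intro h
  rcases (Nat.Prime.dvd_mul hq).mp h with h | h
  · exact hqM h
  · exact hrq ((Nat.prime_dvd_prime_iff_eq hq hr).mp h).symm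

/-- **DESC**. -/
theorem stmt_CE_Desc' : Stmt_CE_Desc' := by
  intro p hp hp5 q hq N N' r _ _ hr hrq hN' hq2 A hA f f' hff' h Q
  haveI : IsAlgClosed (kV A) := isAlgClosed_kV A
  have hrP : r.Prime := by rcases hr with rfl | rfl <;> norm_num
  have hr3 : r ≤ 3 := by rcases hr with rfl | rfl <;> norm_num
  have hr0 : r ≠ 0 := hrP.ne_zero
  have hNN' : N ∣ N' := ⟨r, by rw [hN', mul_comm]⟩
  have hle : redN A N ≤ redN A N' :=
    Fermat.Agent.RED.H51.redField_mono A (S18.modularFunctionFieldBar_mono hNN') _ _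
  have hg : ((gaussRes A N' f' : ↥(redN A N')) : LaurentSeries (kV A))
      = ((gaussRes A N f : ↥(redN A N)) : LaurentSeries (kV A)) := by
    show gaussResF A (hasScale_laurentBaseChange A N') f'
      = gaussResF A (hasScale_laurentBaseChange A N) f
    rw [gaussResF_apply, gaussResF_apply]
    congr 1
    exact Subtype.ext hff'
  obtain ⟨h₁, h₂, hdeg⟩ : IsFF (kV A) ↥(redN A N) ∧ IsFF (kV A) ↥(redN A N') ∧
      (redN A N).relfinrank (redN A N') ≤ r + 1 := by
    by_cases hqN : q ∣ N
    · obtain ⟨M, hM⟩ := hqN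
      have hNM : N = M * q := by rw [hM, mul_comm]
      have hN'M : N' = M * r * q := by rw [hN', hNM]; ring
      subst hNM
      subst hN'M
      have hqM : ¬ q ∣ M := by
        intro hd
        apply hq2
        rw [pow_two]
        exact Nat.mul_dvd_mul hd (dvd_refl q)
      have hM0 : NeZero M := ⟨fun h0 => NeZero.ne (M * q) (by rw [h0, zero_mul])⟩
      have hMr0 : NeZero (M * r) := ⟨Nat.mul_ne_zero (NeZero.ne M) hr0⟩
      have hqMr : ¬ q ∣ M * r := not_dvd_mul_of_ne hq hrP hrq hqM
      rw [redN_mul_eq hq hqM hA, redN_mul_eq hq hqMr hA]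
      exact ⟨isFF_redN_of_not_dvd hq hqM hA, isFF_redN_of_not_dvd hq hqMr hA,
        relfinrank_redN_le hq hrP hrq hqM hA⟩
    · have hN'' : N' = N * r := by rw [hN', mul_comm]
      subst hN''
      have hqNr : ¬ q ∣ N * r := not_dvd_mul_of_ne hq hrP hrq hqN
      exact ⟨isFF_redN_of_not_dvd hq hqN hA, isFF_redN_of_not_dvd hq hqNr hA,
        relfinrank_redN_le hq hrP hrq hqN hA⟩
  exact dvd_ord_intermediate hle h₁ h₂ p hp (by omega) (gaussRes A N f) (gaussRes A N' f') hg h Q

end Modular

end Fermat.Agent.S43.CompEis.H57
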