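/-
S43, leaf COMP-EIS ("the component group is Eisenstein"), owner helper60: interface.

Setting: `N = M q`, `q ∤ M`, `A` a valuation ring of `ℚ̄` over `q`, `I = A.inertiaSubgroupIn ℚ`,
`V₁ = gaussV A N` the Gauss valuation ring of `F = F_N · ℚ̄`, `V₂ = V₁ ∘ w_q`
(`w_q = wS q M a b hab hq`, helper88).

* `IsGaussUnit A N φ`  : `φ` is a unit of the Gauss valuation ring of level `N`.
* `HasSlope .. φ k`    : `|φ|₂ = |φ|₁ · |q|^k`, i.e. there are constants `c₁, c₂` with `c₁ φ` a
                          unit of `V₁`, `c₂ φ` a unit of `V₂` and `|c₁| = |c₂| · |q|^k`.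
* `Stmt_CE_Coord p q M ..` (**COORD**, modular): a semistable Deuring datum (helper28's `SSD`)
  for `F` whose two valuation rings are `V₁` and `V₂`, whose first reduction is the Gauss
  reduction, on which the inertia group acts inertially, with an inertia-fixed annulus
  coordinate of thickness `q ^ e`, `p ∤ e`, at every node.
* `Stmt_CE_NormVal q M ..` (**NORM-VAL**, modular): a Kummer pair `(D, f)` of a class `x` has a
  Kummer pair `(D', f')` of `T_ℓ x` (`f' = N_α (β f)`) such that `c ^ (ℓ + 1) f'` is a Gauss unit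
  whenever `c f` is, for both valuations, and `D'` is fixed by every Galois automorphism which
  fixes `D`.
* `CompEisFun ..` : the function-level form of COMP-EIS proved in `H60_Main.lean`.
-/
import Fermat.Agent.S43.BadQ
import Fermat.Agent.BAD.H28_NodeRad2
attribute [local instance 10000] SubalgebraClass.toAlgebra
attribute [local instance 10000] HahnSeries.powerSeriesAlgebra

set_option autoImplicit false
set_option synthInstance.maxHeartbeats 400000
set_option maxHeartbeats 1000000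

noncomputable section

open AlgebraicCurve ModularCurve

namespace Fermat.Agent.S43.CompEis.H60

open Fermat.Agent.BAD Fermat.Agent.S44 Fermat.Agent.S28.H73 Fermat.Agent.RED.H73
open Fermat.Agent.S43.BadQ

/-- `φ` is a unit of the Gauss valuation ring of level `N`. -/
def IsGaussUnit (A : ValuationSubring (AlgebraicClosure ℚ)) (N : ℕ) (φ : ↥(FNbar N)) : Prop :=
  φ ≠ 0 ∧ φ ∈ gaussV A N ∧ φ⁻¹ ∈ gaussV A N

section Level

variable (A : ValuationSubring (AlgebraicClosure ℚ))
variable (q M : ℕ) (a b : ℤ) (hab : a * q + b * M = 1) (hq : q.Prime) [NeZero (M * q)]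

/-- `φ` has slope `k`: `c₁ φ` is a unit for the Gauss valuation, `c₂ φ` is a unit for the second
valuation `V₁ ∘ w_q`, and `|c₁| = |c₂| |q| ^ k`. -/
def HasSlope (φ : ↥(FNbar (M * q))) (k : ℤ) : Prop :=
  ∃ c₁ c₂ : AlgebraicClosure ℚ,
    IsGaussUnit A (M * q) (algebraMap (AlgebraicClosure ℚ) ↥(FNbar (M * q)) c₁ * φ) ∧
    IsGaussUnit A (M * q) (algebraMap (AlgebraicClosure ℚ) ↥(FNbar (M * q)) c₂ *
      (wS q M a b hab hq • φ)) ∧
    A.valuation c₁ = A.valuation c₂ * A.valuation (q : AlgebraicClosure ℚ) ^ k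

end Level

/-- **COORD, modular form** at level `M q`, for the prime `p`: the semistable Deuring datum of
`X₀(M q)` at `q` with inertia-fixed annulus coordinates of thickness `q ^ e`, `p ∤ e`, at all
nodes.  (To be proved at the THIN levels: `6 ∣ M` for `q ≥ 5`, where `e = 1` at every node.) -/
def Stmt_CE_Coord (p q M : ℕ) (a b : ℤ) (hab : a * q + b * M = 1) (hq : q.Prime)
    [NeZero (M * q)] : Prop :=
  ∀ A : ValuationSubring (AlgebraicClosure ℚ), A.LiesOverPrime q →
    ∃ (F₂ : Type) (_ : Field F₂) (_ : Algebra (kV A) F₂)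
      (S : SSD (AlgebraicClosure ℚ) ↥(FNbar (M * q)) (kV A)
        ↥(redField A (FNbar (M * q)) (hasScale_laurentBaseChange A (M * q))) F₂),
      (∀ f : ↥(FNbar (M * q)), f ∈ S.c₁.V ↔ f ∈ gaussV A (M * q)) ∧
      (∀ (f : ↥(gaussV A (M * q))) (hf : (f : ↥(FNbar (M * q))) ∈ S.c₁.V),
        S.c₁.red ⟨(f : ↥(FNbar (M * q))), hf⟩ = gaussRes A (M * q) f) ∧
      (∀ f : ↥(FNbar (M * q)), f ∈ S.c₂.V ↔ wS q M a b hab hq • f ∈ gaussV A (M * q)) ∧
      (∀ σ ∈ A.inertiaSubgroupIn ℚ, S.IsInertial (galF (M * q) σ)) ∧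
      ∀ s ∈ S.nodes, ∃ (e : ℕ) (t : ↥(FNbar (M * q))), ¬ p ∣ e ∧
        S.IsAnnCoord s t ((q : AlgebraicClosure ℚ) ^ e) ∧
        ∀ σ ∈ A.inertiaSubgroupIn ℚ, galF (M * q) σ • t = t

/-- **NORM-VAL, modular form** at level `M q`: the Hecke operator `T_ℓ`, `ℓ ∤ M q`, on Kummer
pairs.  If `n D = div f` then `T_ℓ [D] = [D']` with `n D' = div f'` (`f' = N_α (β f)`), where
`D'` is fixed by the Galois automorphisms fixing `D`, and `c ^ (ℓ + 1) f'` is a unit of the Gauss
valuation ring `V₁` (of `V₂ = V₁ ∘ w_q`) whenever `c f` is. -/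
def Stmt_CE_NormVal (q M : ℕ) (a b : ℤ) (hab : a * q + b * M = 1) (hq : q.Prime)
    [NeZero (M * q)] : Prop :=
  ∀ A : ValuationSubring (AlgebraicClosure ℚ), A.LiesOverPrime q →
    ∀ ℓ : Nat.Primes, ¬ (ℓ : ℕ) ∣ M * q →
    ∀ (n : ℕ) (D : Divisor.degZero (K := AlgebraicClosure ℚ) (F := ↥(FNbar (M * q))))
      (f : ↥(FNbar (M * q))), f ≠ 0 →
      (∀ P : Place (AlgebraicClosure ℚ) ↥(FNbar (M * q)),
        (n : ℤ) * (D : Divisor (AlgebraicClosure ℚ) ↥(FNbar (M * q))) P = P.ord f) →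
      ∃ (D' : Divisor.degZero (K := AlgebraicClosure ℚ) (F := ↥(FNbar (M * q))))
        (f' : ↥(FNbar (M * q))), f' ≠ 0 ∧
        heckeOperatorBar (M * q) ℓ (Pic0.mk D) = Pic0.mk D' ∧
        (∀ P : Place (AlgebraicClosure ℚ) ↥(FNbar (M * q)),
          (n : ℤ) * (D' : Divisor (AlgebraicClosure ℚ) ↥(FNbar (M * q))) P = P.ord f') ∧
        (∀ σ : GalQ, galF (M * q) σ • (D : Divisor (AlgebraicClosure ℚ) ↥(FNbar (M * q))) = D →
          galF (M * q) σ • (D' : Divisor (AlgebraicClosure ℚ) ↥(FNbar (M * q))) = D') ∧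
        (∀ c : AlgebraicClosure ℚ,
          IsGaussUnit A (M * q) (algebraMap (AlgebraicClosure ℚ) ↥(FNbar (M * q)) c * f) →
          IsGaussUnit A (M * q)
            (algebraMap (AlgebraicClosure ℚ) ↥(FNbar (M * q)) (c ^ ((ℓ : ℕ) + 1)) * f')) ∧
        (∀ c : AlgebraicClosure ℚ,
          IsGaussUnit A (M * q) (algebraMap (AlgebraicClosure ℚ) ↥(FNbar (M * q)) c *
            (wS q M a b hab hq • f)) →
          IsGaussUnit A (M * q)
            (algebraMap (AlgebraicClosure ℚ) ↥(FNbar (M * q)) (c ^ ((ℓ : ℕ) + 1)) *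
              (wS q M a b hab hq • f')))

/-- **W-UP**: the Atkin-Lehner involution `w_q` of level `M R q` extends the one of level `M q`
(both act on `q`-expansions; compare helper88's `wUp_comp_alpha`). -/
def Stmt_CE_WUp : Prop :=
  ∀ (q M R : ℕ) (a b : ℤ) (hab : a * q + b * M = 1) (a' b' : ℤ)
    (hab' : a' * q + b' * ((M * R : ℕ) : ℤ) = 1) (hq : q.Prime) [NeZero (M * q)]
    [NeZero (M * R * q)] (x : ↥(FNbar (M * q))) (y : ↥(FNbar (M * R * q))),
    (y : LaurentSeries (AlgebraicClosure ℚ)) = (x : LaurentSeries (AlgebraicClosure ℚ)) →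
    ((wS q (M * R) a' b' hab' hq • y : ↥(FNbar (M * R * q))) :
        LaurentSeries (AlgebraicClosure ℚ)) =
      ((wS q M a b hab hq • x : ↥(FNbar (M * q))) : LaurentSeries (AlgebraicClosure ℚ))

/-- **DESC**: descent of the divisibility of the orders of a reduced function from level
`N' = 2 N` or `3 N` to level `N`, at a place `A` of residue characteristic `q ≠ N' / N`
(`ord_{Q'} = e(Q' | Q) ord_Q`, `e ≤ 4 < p`; every place `Q` of the reduced field of level `N`
has a place `Q'` of the reduced field of level `N'` above it). -/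
def Stmt_CE_Desc : Prop :=
  ∀ (p : ℕ), p.Prime → 5 ≤ p → ∀ (q : ℕ), q.Prime →
    ∀ (N N' r : ℕ) [NeZero N] [NeZero N'], (r = 2 ∨ r = 3) → r ≠ q → N' = r * N →
    ∀ A : ValuationSubring (AlgebraicClosure ℚ), A.LiesOverPrime q →
    ∀ (f : ↥(gaussV A N)) (f' : ↥(gaussV A N')),
      (((f' : ↥(gaussV A N')) : ↥(FNbar N')) : LaurentSeries (AlgebraicClosure ℚ)) =
        (((f : ↥(gaussV A N)) : ↥(FNbar N)) : LaurentSeries (AlgebraicClosure ℚ)) →
      (∀ Q' : Place (kV A) ↥(redField A (FNbar N') (hasScale_laurentBaseChange A N')),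
        (p : ℤ) ∣ Q'.ord (gaussRes A N' f')) →
      ∀ Q : Place (kV A) ↥(redField A (FNbar N) (hasScale_laurentBaseChange A N)),
        (p : ℤ) ∣ Q.ord (gaussRes A N f)

/-- The thin levels: the levels `M q` at which every supersingular point of `X₀(M)` in
characteristic `q` has no extra automorphism (all nodes of `X₀(M q)` have thickness `1`). -/
def Thin (M q : ℕ) : Prop := (5 ≤ q ∧ 6 ∣ M) ∨ (q = 3 ∧ 4 ∣ M) ∨ (q = 2 ∧ 9 ∣ M)

end Fermat.Agent.S43.CompEis.H60
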