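/-
S43, leaf COMP-EIS (helper60): COORD at the tame levels.

`stmt_CE_Coord_tame` : `Stmt_CE_Coord p q M ..` at every tame level `M q`, for `p ≥ 5`, from
* the modular semistable Deuring datum `BADP.H21.theS` (helper91 / helper21; TOT-MOD helper23,
  CUSP helper69),
* COORD at the nodes, `BADP.H21.coord_theS` (helper21),
* ARITH-0, `BADP.H11.isK0Lift_mod` (helper11).
-/
import Fermat.Agent.S43.CompEis.H60_Defs
import Fermat.Agent.BADP.H21_CoordK0
import Fermat.Agent.BADP.H11_Arith0Mod

set_option autoImplicit false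
set_option synthInstance.maxHeartbeats 400000
set_option maxHeartbeats 1000000
set_option linter.style.haveILetI false
set_option linter.unusedSectionVars false

noncomputable section

open AlgebraicCurve ModularCurve

namespace Fermat.Agent.S43.CompEis.H60

open Fermat.Agent.BAD Fermat.Agent.S44 Fermat.Agent.S28.H73 Fermat.Agent.RED.H73
open Fermat.Agent.S43.BadQ Fermat.Agent.RED Fermat.Agent.BAD.H88 Fermat.Agent.BAD.H91

theorem not_dvd_of_dvd_twelve {p n : ℕ} (hp : p.Prime) (hp5 : 5 ≤ p) (hn : n ∣ 12) :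
    ¬ p ∣ n := by
  intro hpn
  have h12 : p ∣ 12 := hpn.trans hn
  have hle : p ≤ 12 := Nat.le_of_dvd (by norm_num) h12
  interval_cases p <;> revert hp h12 <;> decide

section Wire

variable (A : ValuationSubring (AlgebraicClosure ℚ)) (q M : ℕ) (a b : ℤ)
  (hab : a * q + b * M = 1) (hq : q.Prime) [NeZero M] [NeZero (M * q)] [NeZero q]
  (hA : A.LiesOverPrime q) (hqM : ¬ q ∣ M) (ht : TameAt M q)

/-- helper21's modular datum at a tame level is a modular datum (helper93's `IsModDatum`). -/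
theorem isModDatum_theS :
    Fermat.Agent.BADP.IsModDatum A q M a b hab hq
      (Fermat.Agent.BADP.H21.theS A q M a b hab hq hA hqM ht) :=
  { mem₁ := fun _ => Iff.rfl
    red₁ := fun _ _ => rfl
    mem₂ := fun _ => Iff.rfl
    red₂ := fun _ _ _ => rfl
    ff := Fermat.Agent.BADP.H21.ffL q M
    ff₁ := Fermat.Agent.BADP.H21.ff1 A q M a b hab hq hA hqM ht
    genus := Fermat.Agent.BADP.H21.modS_genus A q M a b hab hq hA hqM ht
      (Fermat.Agent.BADP.H21.totModAt A q M a b hab hq hA hqM ht)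
    inertial := fun _ hσ => Fermat.Agent.BADP.H21.modS_inertial A q M a b hab hq hA hqM ht
      (Fermat.Agent.BADP.H21.totModAt A q M a b hab hq hA hqM ht) hσ }

end Wire

/-- **COORD at a tame level.** -/
theorem stmt_CE_Coord_tame (p q M : ℕ) (a b : ℤ) (hab : a * q + b * M = 1) (hq : q.Prime)
    [NeZero (M * q)] (hp : p.Prime) (hp5 : 5 ≤ p) (hqM : ¬ q ∣ M) (ht : TameAt M q) :
    Stmt_CE_Coord p q M a b hab hq := by
  intro A hA
  haveI : NeZero M := ⟨fun h => NeZero.ne (M * q) (by rw [h, zero_mul])⟩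
  haveI : NeZero q := ⟨hq.ne_zero⟩
  have hS := isModDatum_theS A q M a b hab hq hA hqM ht
  refine ⟨F1 A q M, inferInstance, inferInstance,
    Fermat.Agent.BADP.H21.theS A q M a b hab hq hA hqM ht,
    hS.mem₁, hS.red₁, hS.mem₂, hS.inertial, ?_⟩
  intro s hs
  obtain ⟨n, t, -, hn12, hcoord, hfix⟩ :=
    Fermat.Agent.BADP.H21.coord_theS A q M a b hab hq hA hqM ht
      (Fermat.Agent.BADP.H11.isK0Lift_mod hA hS _ (fun _ hτ => hτ)) hs
  exact ⟨n, t, not_dvd_of_dvd_twelve hp hp5 hn12, hcoord, hfix⟩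

end Fermat.Agent.S43.CompEis.H60
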