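/-
S43, leaf COMP-EIS (helper60): interface, part 2.

* `Stmt_CE_Hecke q M ..` (**HECKE**, function form of the eigenvector condition): an
  inertia-fixed class `x ∈ J₀(M q)[p]` with `T_ℓ x = t x` has an inertia-fixed Kummer function
  `f` (`x = [D]`, `p D = div f`) such that `c f ^ t₀ g ^ p` has slope `(ℓ + 1) k` whenever `f`
  has slope `k`, where `g` is an inertia-fixed function, `c` a constant and `t₀ ≡ t mod p`.
  (Proof: `S36.H61.stmt_NUB0`, `S36.H61.exists_fixed_function`, `Stmt_CE_NormVal`;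
  `c f ^ t₀ g ^ p = N_α (β f)`.)
-/
import Fermat.Agent.S43.CompEis.H60_Defs

set_option autoImplicit false
set_option synthInstance.maxHeartbeats 400000
set_option maxHeartbeats 1000000

noncomputable section

open AlgebraicCurve ModularCurve

namespace Fermat.Agent.S43.CompEis.H60

open Fermat.Agent.BAD Fermat.Agent.S44 Fermat.Agent.S28.H73 Fermat.Agent.RED.H73
open Fermat.Agent.S43.BadQ

/-- **HECKE**: the eigenvector condition on Kummer functions. -/
def Stmt_CE_Hecke (q M : ℕ) (a b : ℤ) (hab : a * q + b * M = 1) (hq : q.Prime)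
    [NeZero (M * q)] : Prop :=
  ∀ A : ValuationSubring (AlgebraicClosure ℚ), A.LiesOverPrime q →
    ∀ (p : ℕ), p.Prime → ∀ ℓ : Nat.Primes, ¬ (ℓ : ℕ) ∣ M * q →
    ∀ (t : ℤ) (x : JZero (M * q)), (p : ℤ) • x = 0 →
      (∀ σ ∈ A.inertiaSubgroupIn ℚ, σ • x = x) →
      heckeOperatorBar (M * q) ℓ x = t • x →
      ∃ (D : Divisor.degZero (K := AlgebraicClosure ℚ) (F := ↥(FNbar (M * q))))
        (f g : ↥(FNbar (M * q))) (c : AlgebraicClosure ℚ) (t₀ : ℕ),
        f ≠ 0 ∧ g ≠ 0 ∧ c ≠ 0 ∧ x = Pic0.mk D ∧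
        (∀ P : Place (AlgebraicClosure ℚ) ↥(FNbar (M * q)),
          (p : ℤ) * (D : Divisor (AlgebraicClosure ℚ) ↥(FNbar (M * q))) P = P.ord f) ∧
        (∀ σ ∈ A.inertiaSubgroupIn ℚ, galF (M * q) σ • f = f) ∧
        (∀ σ ∈ A.inertiaSubgroupIn ℚ, galF (M * q) σ • g = g) ∧
        ((t₀ : ℤ) : ZMod p) = (t : ZMod p) ∧
        ∀ k : ℤ, HasSlope A q M a b hab hq f k →
          HasSlope A q M a b hab hq
            (algebraMap (AlgebraicClosure ℚ) ↥(FNbar (M * q)) c * f ^ t₀ * g ^ p)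
            (((ℓ : ℕ) + 1 : ℤ) * k)

end Fermat.Agent.S43.CompEis.H60
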