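/-
S43, leaf COMP-EIS (helper60): calculus of Gauss units and slopes.

* `IsGaussUnit` is multiplicative; a constant is a Gauss unit iff its valuation is `1`;
* `HasSlope` is additive in the function, zero on constants, unique.
-/
import Fermat.Agent.S43.CompEis.H60_Defs

set_option autoImplicit false
set_option synthInstance.maxHeartbeats 400000
set_option maxHeartbeats 1000000

noncomputable section

open AlgebraicCurve ModularCurve

namespace Fermat.Agent.S43.CompEis.H60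

open Fermat.Agent.BAD Fermat.Agent.S44 Fermat.Agent.S28.H73 Fermat.Agent.RED.H73
open Fermat.Agent.S43.BadQ

section GU

variable {A : ValuationSubring (AlgebraicClosure ℚ)} {N : ℕ}

theorem IsGaussUnit.ne_zero {φ : ↥(FNbar N)} (h : IsGaussUnit A N φ) : φ ≠ 0 := h.1

theorem IsGaussUnit.mem {φ : ↥(FNbar N)} (h : IsGaussUnit A N φ) : φ ∈ gaussV A N := h.2.1

theorem IsGaussUnit.inv_mem {φ : ↥(FNbar N)} (h : IsGaussUnit A N φ) : φ⁻¹ ∈ gaussV A N :=
  h.2.2

theorem isGaussUnit_one : IsGaussUnit A N (1 : ↥(FNbar N)) :=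
  ⟨one_ne_zero, (gaussV A N).one_mem, by rw [inv_one]; exact (gaussV A N).one_mem⟩

theorem IsGaussUnit.mul {φ ψ : ↥(FNbar N)} (h₁ : IsGaussUnit A N φ) (h₂ : IsGaussUnit A N ψ) :
    IsGaussUnit A N (φ * ψ) :=
  ⟨mul_ne_zero h₁.1 h₂.1, (gaussV A N).mul_mem _ _ h₁.2.1 h₂.2.1, by
    rw [mul_inv]; exact (gaussV A N).mul_mem _ _ h₁.2.2 h₂.2.2⟩

theorem IsGaussUnit.inv {φ : ↥(FNbar N)} (h : IsGaussUnit A N φ) : IsGaussUnit A N φ⁻¹ :=
  ⟨inv_ne_zero h.1, h.2.2, by rw [inv_inv]; exact h.2.1⟩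

theorem IsGaussUnit.div {φ ψ : ↥(FNbar N)} (h₁ : IsGaussUnit A N φ) (h₂ : IsGaussUnit A N ψ) :
    IsGaussUnit A N (φ / ψ) := by
  rw [div_eq_mul_inv]; exact h₁.mul h₂.inv

theorem IsGaussUnit.pow {φ : ↥(FNbar N)} (h : IsGaussUnit A N φ) (n : ℕ) :
    IsGaussUnit A N (φ ^ n) := by
  induction n with
  | zero => rw [pow_zero]; exact isGaussUnit_one
  | succ n ih => rw [pow_succ]; exact ih.mul h

/-- A constant is a Gauss unit iff its valuation is `1`. -/
theorem isGaussUnit_const_iff (c : AlgebraicClosure ℚ) :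
    IsGaussUnit A N (algebraMap (AlgebraicClosure ℚ) ↥(FNbar N) c) ↔ A.valuation c = 1 := by
  constructor
  · rintro ⟨h0, h1, h2⟩
    have hc0 : c ≠ 0 := by
      rintro rfl
      exact h0 (map_zero _)
    have hc : c ∈ A :=
      (algebraMap_mem_gaussValSub_iff A (hasScale_laurentBaseChange A N) c).mp h1
    rw [← map_inv₀] at h2
    have hc' : c⁻¹ ∈ A :=
      (algebraMap_mem_gaussValSub_iff A (hasScale_laurentBaseChange A N) c⁻¹).mp h2
    have e1 : A.valuation c ≤ 1 := (A.valuation_le_one_iff c).mpr hc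
    have e2 : A.valuation c⁻¹ ≤ 1 := (A.valuation_le_one_iff c⁻¹).mpr hc'
    rw [map_inv₀] at e2
    have hv0 : A.valuation c ≠ 0 := (Valuation.ne_zero_iff _).mpr hc0
    have e3 : 1 ≤ A.valuation c := by
      have := (inv_le_one₀ (zero_lt_iff.mpr hv0)).mp e2
      exact this
    exact le_antisymm e1 e3
  · intro hv
    have hc0 : c ≠ 0 := by
      rintro rfl
      rw [map_zero] at hv
      exact zero_ne_one hv
    have hc : c ∈ A := (A.valuation_le_one_iff c).mp hv.le
    have hc' : c⁻¹ ∈ A := by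
      apply (A.valuation_le_one_iff c⁻¹).mp
      rw [map_inv₀, hv, inv_one]
    refine ⟨(map_ne_zero _).mpr hc0, ?_, ?_⟩
    · exact (algebraMap_mem_gaussValSub_iff A (hasScale_laurentBaseChange A N) c).mpr hc
    · rw [← map_inv₀]
      exact (algebraMap_mem_gaussValSub_iff A (hasScale_laurentBaseChange A N) c⁻¹).mpr hc'

/-- Two scalings of the same function have the same valuation. -/
theorem IsGaussUnit.valuation_eq {φ : ↥(FNbar N)} {c d : AlgebraicClosure ℚ}
    (h₁ : IsGaussUnit A N (algebraMap (AlgebraicClosure ℚ) ↥(FNbar N) c * φ))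
    (h₂ : IsGaussUnit A N (algebraMap (AlgebraicClosure ℚ) ↥(FNbar N) d * φ)) :
    A.valuation c = A.valuation d := by
  have hφ : φ ≠ 0 := right_ne_zero_of_mul h₁.1
  have hd0 : d ≠ 0 := by
    rintro rfl
    exact h₂.1 (by rw [map_zero, zero_mul])
  have hdF : algebraMap (AlgebraicClosure ℚ) ↥(FNbar N) d ≠ 0 := (map_ne_zero _).mpr hd0
  have h3 := h₁.div h₂
  have e : algebraMap (AlgebraicClosure ℚ) ↥(FNbar N) c * φ /
      (algebraMap (AlgebraicClosure ℚ) ↥(FNbar N) d * φ)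
      = algebraMap (AlgebraicClosure ℚ) ↥(FNbar N) (c / d) := by
    rw [map_div₀]
    field_simp
  rw [e] at h3
  have h4 := (isGaussUnit_const_iff (A := A) (N := N) (c / d)).mp h3
  rw [map_div₀] at h4
  have hv0 : A.valuation d ≠ 0 := (Valuation.ne_zero_iff _).mpr hd0
  exact (div_eq_one_iff_eq hv0).mp h4

end GU

section Slope

variable {A : ValuationSubring (AlgebraicClosure ℚ)}
variable {q M : ℕ} {a b : ℤ} {hab : a * q + b * M = 1} {hq : q.Prime} [NeZero (M * q)]

theorem wS_smul_algebraMap (c : AlgebraicClosure ℚ) :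
    wS q M a b hab hq • algebraMap (AlgebraicClosure ℚ) ↥(FNbar (M * q)) c
      = algebraMap (AlgebraicClosure ℚ) ↥(FNbar (M * q)) c := by
  rw [SemilinearAut.smul_algebraMap]
  rfl

theorem wS_smul_ne_zero {φ : ↥(FNbar (M * q))} (h : φ ≠ 0) : wS q M a b hab hq • φ ≠ 0 := by
  intro h0
  apply h
  have h1 := congrArg (fun z => (wS q M a b hab hq)⁻¹ • z) h0
  simp only [inv_smul_smul, smul_zero] at h1
  exact h1

theorem valuation_q_lt_one (hA : A.LiesOverPrime q) :
    A.valuation (q : AlgebraicClosure ℚ) < 1 :=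
  (A.mem_nonunits_iff).mp hA

theorem valuation_q_ne_zero (hq : q.Prime) : A.valuation (q : AlgebraicClosure ℚ) ≠ 0 :=
  (Valuation.ne_zero_iff _).mpr (Nat.cast_ne_zero.mpr hq.ne_zero)

theorem HasSlope.ne_zero {φ : ↥(FNbar (M * q))} {k : ℤ} (h : HasSlope A q M a b hab hq φ k) :
    φ ≠ 0 := by
  obtain ⟨c₁, c₂, h₁, -, -⟩ := h
  exact right_ne_zero_of_mul h₁.1

/-- The slope is unique. -/
theorem HasSlope.unique (hA : A.LiesOverPrime q) {φ : ↥(FNbar (M * q))} {k k' : ℤ}
    (h : HasSlope A q M a b hab hq φ k) (h' : HasSlope A q M a b hab hq φ k') : k = k' := by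
  obtain ⟨c₁, c₂, h₁, h₂, hv⟩ := h
  obtain ⟨d₁, d₂, g₁, g₂, hw⟩ := h'
  have e₁ := h₁.valuation_eq g₁
  have e₂ := h₂.valuation_eq g₂
  rw [e₁, e₂, hw] at hv
  have hd0 : d₂ ≠ 0 := by
    rintro rfl
    exact g₂.1 (by rw [map_zero, zero_mul])
  have hv0 : A.valuation d₂ ≠ 0 := (Valuation.ne_zero_iff _).mpr hd0
  have h3 := mul_left_cancel₀ hv0 hv
  have hq0 := valuation_q_ne_zero (A := A) hq
  exact (zpow_right_injective₀ (zero_lt_iff.mpr hq0) (valuation_q_lt_one hA).ne h3).symm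

/-- Constants have slope `0`. -/
theorem hasSlope_const {c : AlgebraicClosure ℚ} (hc : c ≠ 0) :
    HasSlope A q M a b hab hq (algebraMap (AlgebraicClosure ℚ) ↥(FNbar (M * q)) c) 0 := by
  have h1 : IsGaussUnit A (M * q)
      (algebraMap (AlgebraicClosure ℚ) ↥(FNbar (M * q)) c⁻¹ *
        algebraMap (AlgebraicClosure ℚ) ↥(FNbar (M * q)) c) := by
    rw [← map_mul, inv_mul_cancel₀ hc, map_one]
    exact isGaussUnit_one
  refine ⟨c⁻¹, c⁻¹, h1, ?_, ?_⟩
  · rw [wS_smul_algebraMap]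
    exact h1
  · rw [zpow_zero, mul_one]

/-- Slopes add. -/
theorem HasSlope.mul {φ ψ : ↥(FNbar (M * q))} {k j : ℤ}
    (h : HasSlope A q M a b hab hq φ k) (h' : HasSlope A q M a b hab hq ψ j) :
    HasSlope A q M a b hab hq (φ * ψ) (k + j) := by
  obtain ⟨c₁, c₂, h₁, h₂, hv⟩ := h
  obtain ⟨d₁, d₂, g₁, g₂, hw⟩ := h'
  refine ⟨c₁ * d₁, c₂ * d₂, ?_, ?_, ?_⟩
  · have := h₁.mul g₁
    rw [map_mul]
    convert this using 1
    ring
  · have := h₂.mul g₂
    rw [map_mul, smul_mul']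
    convert this using 1
    ring
  · rw [map_mul, map_mul, hv, hw, zpow_add₀ (valuation_q_ne_zero (A := A) hq)]
    exact mul_mul_mul_comm _ _ _ _

/-- Slopes of powers. -/
theorem HasSlope.pow {φ : ↥(FNbar (M * q))} {k : ℤ}
    (h : HasSlope A q M a b hab hq φ k) (n : ℕ) :
    HasSlope A q M a b hab hq (φ ^ n) (n * k) := by
  induction n with
  | zero =>
    rw [pow_zero, Nat.cast_zero, zero_mul]
    have := hasSlope_const (A := A) (q := q) (M := M) (a := a) (b := b) (hab := hab) (hq := hq)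
      (one_ne_zero (α := AlgebraicClosure ℚ))
    rwa [map_one] at this
  | succ n ih =>
    rw [pow_succ]
    have := ih.mul h
    convert this using 1
    push_cast
    ring

end Slope

end Fermat.Agent.S43.CompEis.H60
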