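/-
S43, leaf COMP-EIS (helper60): slopes at the nodes of a semistable Deuring datum.

Setting: a datum `S` (helper28's `SSD`) for `F = F_{M q} · ℚ̄` whose two valuation rings are
the Gauss valuation ring `V₁` and `V₂ = V₁ ∘ w_q`, on which the inertia group acts inertially,
with inertia-fixed annulus coordinates of thickness `q ^ e` at the nodes.

* `slope_node`  : for an inertia-fixed function `f` whose divisor is divisible by `n` on the
  fibre of the node `s`: `slope f = e m + n k`, `m = ord_{s.1} (rd₁ (c₁ f))`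
  (helper28's `SSD.nodeRad_isInertial` + helper6's `stmt_UnrFix`).
-/
import Fermat.Agent.S43.CompEis.H60_Slope
import Fermat.Agent.BAD.H28_NodeRad3
import Fermat.Agent.R.H6_UnrFix
import Fermat.Agent.RED.H17_LiftMove
import Fermat.Agent.RED.H95_IsFF
attribute [local instance 10000] SubalgebraClass.toAlgebra
attribute [local instance 10000] HahnSeries.powerSeriesAlgebra

set_option autoImplicit false
set_option synthInstance.maxHeartbeats 400000
set_option maxHeartbeats 1000000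
set_option linter.style.haveILetI false
set_option linter.unusedSectionVars false

noncomputable section

open AlgebraicCurve ModularCurve

attribute [local instance] Classical.propDecidable

namespace Fermat.Agent.S43.CompEis.H60

open Fermat.Agent.BAD Fermat.Agent.S44 Fermat.Agent.S28.H73 Fermat.Agent.RED.H73
open Fermat.Agent.S43.BadQ Fermat.Agent.RED.H17 Fermat.Agent.RED

section PRedUnit

variable {K F k F' : Type*} [Field K] [Field F] [Algebra K F] [Field k] [Field F']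
  [Algebra k F'] (S : PRed K F k F')

/-- A Gauss unit is a nonzero function which is integral together with its inverse. -/
theorem isGU_iff_inv_mem (φ : F) : S.IsGU φ ↔ φ ≠ 0 ∧ φ ∈ S.V ∧ φ⁻¹ ∈ S.V := by
  constructor
  · intro h
    exact ⟨h.ne_zero, h.mem, h.inv_mem⟩
  · rintro ⟨h0, h1, h2⟩
    refine ⟨h1, fun hr => ?_⟩
    have h3 : S.rd (φ * φ⁻¹) = S.rd φ * S.rd φ⁻¹ := S.rd_mul h1 h2
    rw [mul_inv_cancel₀ h0, S.rd_one, hr, zero_mul] at h3
    exact one_ne_zero h3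

end PRedUnit

section Dict

variable {A : ValuationSubring (AlgebraicClosure ℚ)}
variable {q M : ℕ} {a b : ℤ} {hab : a * q + b * M = 1} {hq : q.Prime} [NeZero (M * q)]
variable {k F₁ F₂ : Type*} [Field k] [Field F₁] [Algebra k F₁] [Field F₂] [Algebra k F₂]
variable (S : SSD (AlgebraicClosure ℚ) ↥(FNbar (M * q)) k F₁ F₂)

theorem isGU₁_iff (hV₁ : ∀ f : ↥(FNbar (M * q)), f ∈ S.c₁.V ↔ f ∈ gaussV A (M * q))
    (φ : ↥(FNbar (M * q))) : S.c₁.IsGU φ ↔ IsGaussUnit A (M * q) φ := by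
  rw [isGU_iff_inv_mem, hV₁, hV₁]
  rfl

theorem isGU₂_iff
    (hV₂ : ∀ f : ↥(FNbar (M * q)), f ∈ S.c₂.V ↔ wS q M a b hab hq • f ∈ gaussV A (M * q))
    (φ : ↥(FNbar (M * q))) :
    S.c₂.IsGU φ ↔ IsGaussUnit A (M * q) (wS q M a b hab hq • φ) := by
  rw [isGU_iff_inv_mem, hV₂, hV₂, smul_inv'']
  unfold IsGaussUnit
  constructor
  · rintro ⟨h0, h1, h2⟩
    exact ⟨wS_smul_ne_zero h0, h1, h2⟩
  · rintro ⟨h0, h1, h2⟩
    refine ⟨fun h => h0 ?_, h1, h2⟩
    rw [h, smul_zero]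

theorem isCU_iff (hV₁ : ∀ f : ↥(FNbar (M * q)), f ∈ S.c₁.V ↔ f ∈ gaussV A (M * q))
    (c : AlgebraicClosure ℚ) : S.IsCU c ↔ A.valuation c = 1 := by
  unfold SSD.IsCU
  rw [isGU₁_iff S hV₁, isGaussUnit_const_iff]

end Dict

section Node

variable {A : ValuationSubring (AlgebraicClosure ℚ)}
variable {q M : ℕ} {a b : ℤ} {hab : a * q + b * M = 1} {hq : q.Prime} [NeZero (M * q)]
variable {k F₁ F₂ : Type*} [Field k] [Field F₁] [Algebra k F₁] [Field F₂] [Algebra k F₂]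
variable (S : SSD (AlgebraicClosure ℚ) ↥(FNbar (M * q)) k F₁ F₂)

/-- **The slope at a node**: for an inertia-fixed function `f` whose divisor is divisible by
`n` on the fibre of the node `s` (with an inertia-fixed coordinate of thickness `q ^ e`), and
scalings `c₁ f`, `c₂ f` to Gauss units of `V₁`, `V₂`:
`|c₁| = |c₂| |q| ^ (e m + n k)`, `m = ord_{s.1} (rd₁ (c₁ f))`, for some integer `k`. -/
theorem slope_node (hq' : q.Prime) (hA : A.LiesOverPrime q)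
    (hP : HasPrincipalDivisors (AlgebraicClosure ℚ) ↥(FNbar (M * q)))
    (hdeg : ∀ v : Place (AlgebraicClosure ℚ) ↥(FNbar (M * q)), v.deg = 1)
    (hV₁ : ∀ f : ↥(FNbar (M * q)), f ∈ S.c₁.V ↔ f ∈ gaussV A (M * q))
    (hin : ∀ σ ∈ A.inertiaSubgroupIn ℚ, S.IsInertial (galF (M * q) σ))
    {s : Place k F₁ × Place k F₂} (hs : s ∈ S.nodes) {e : ℕ} {t : ↥(FNbar (M * q))}
    (ht : S.IsAnnCoord s t ((q : AlgebraicClosure ℚ) ^ e))
    (htfix : ∀ σ ∈ A.inertiaSubgroupIn ℚ, galF (M * q) σ • t = t)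
    {f : ↥(FNbar (M * q))} (hffix : ∀ σ ∈ A.inertiaSubgroupIn ℚ, galF (M * q) σ • f = f)
    {c₁ c₂ : AlgebraicClosure ℚ}
    (h₁ : S.c₁.IsGU (algebraMap (AlgebraicClosure ℚ) ↥(FNbar (M * q)) c₁ * f))
    (h₂ : S.c₂.IsGU (algebraMap (AlgebraicClosure ℚ) ↥(FNbar (M * q)) c₂ * f))
    (n : ℕ) (D : Place (AlgebraicClosure ℚ) ↥(FNbar (M * q)) → ℤ)
    (hD : ∀ P, S.c₁.r P = some s.1 → P.ord f = n * D P) :
    ∃ k : ℤ, A.valuation c₁ = A.valuation c₂ * A.valuation (q : AlgebraicClosure ℚ) ^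
      ((e : ℤ) * s.1.ord (S.c₁.rd (algebraMap (AlgebraicClosure ℚ) ↥(FNbar (M * q)) c₁ * f))
        + n * k) := by
  obtain ⟨I, hI⟩ : ∃ I : Set (SemilinearAut (AlgebraicClosure ℚ) ↥(FNbar (M * q))),
      I = {g | ∃ σ ∈ A.inertiaSubgroupIn ℚ, g = galF (M * q) σ} := ⟨_, rfl⟩
  have hImem : ∀ σ ∈ A.inertiaSubgroupIn ℚ, galF (M * q) σ ∈ I := by
    intro σ hσ
    rw [hI]
    exact ⟨σ, hσ, rfl⟩
  obtain ⟨Y, hY0, hYfix, hCU⟩ := S.nodeRad_isInertial hP hdeg hs ht h₁ h₂ n D hD I (by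
    intro g hg
    rw [hI] at hg
    obtain ⟨σ, hσ, rfl⟩ := hg
    refine ⟨hin σ hσ, htfix σ hσ, ?_, hffix σ hσ⟩
    show σ ((q : AlgebraicClosure ℚ) ^ e) = (q : AlgebraicClosure ℚ) ^ e
    rw [map_pow, map_natCast])
  have hYfix' : ∀ σ ∈ A.inertiaSubgroupIn ℚ, σ Y = Y := fun σ hσ =>
    hYfix (galF (M * q) σ) (hImem σ hσ)
  obtain ⟨k, hk⟩ := Fermat.Agent.R.H6.stmt_UnrFix q hq' A hA Y hY0 hYfix'
  refine ⟨k, ?_⟩
  rw [isCU_iff S hV₁] at hCU
  have hc₂ : c₂ ≠ 0 := by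
    rintro rfl
    exact h₂.ne_zero (by rw [map_zero, zero_mul])
  have hq0 : A.valuation (q : AlgebraicClosure ℚ) ≠ 0 := valuation_q_ne_zero hq'
  have hden : A.valuation (c₂ * ((q : AlgebraicClosure ℚ) ^ e) ^
      s.1.ord (S.c₁.rd (algebraMap (AlgebraicClosure ℚ) ↥(FNbar (M * q)) c₁ * f)) * Y ^ n) ≠ 0 := by
    rw [Valuation.ne_zero_iff]
    refine mul_ne_zero (mul_ne_zero hc₂ (zpow_ne_zero _ (pow_ne_zero _ ?_))) (pow_ne_zero _ hY0)
    exact Nat.cast_ne_zero.mpr hq'.ne_zero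
  rw [map_div₀, div_eq_one_iff_eq hden] at hCU
  rw [hCU, map_mul, map_mul, map_zpow₀, map_pow, map_pow, hk, mul_assoc]
  congr 1
  rw [zpow_add₀ hq0, zpow_mul, zpow_natCast, mul_comm (n : ℤ) k, zpow_mul, zpow_natCast]

end Node

section Coord

variable {A : ValuationSubring (AlgebraicClosure ℚ)}
variable {q M : ℕ} {a b : ℤ} {hab : a * q + b * M = 1} {hq : q.Prime} [NeZero (M * q)]

theorem hP_FN (N : ℕ) [NeZero N] : HasPrincipalDivisors (AlgebraicClosure ℚ) ↥(FNbar N) :=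
  (Fermat.Agent.RED.H17.ffHyp_of_isFF _ _ (Fermat.Agent.RED.H95.stmt_HKA_isFF N)).principal

theorem hdeg_FN (N : ℕ) [NeZero N] (v : Place (AlgebraicClosure ℚ) ↥(FNbar N)) : v.deg = 1 :=
  (Fermat.Agent.RED.H17.ffHyp_of_isFF _ _ (Fermat.Agent.RED.H95.stmt_HKA_isFF N)).deg_one v

/-- **Integrality of slopes** at a level with coordinates: every inertia-fixed function has a
slope. -/
theorem exists_hasSlope_of_coord (p : ℕ) (hA : A.LiesOverPrime q)
    (hC : Stmt_CE_Coord p q M a b hab hq) {g : ↥(FNbar (M * q))} (hg : g ≠ 0)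
    (hfix : ∀ σ ∈ A.inertiaSubgroupIn ℚ, galF (M * q) σ • g = g) :
    ∃ k : ℤ, HasSlope A q M a b hab hq g k := by
  obtain ⟨F₂, _, _, S, hV₁, hred, hV₂, hin, hcoord⟩ := hC A hA
  obtain ⟨s, hs⟩ := S.nodes_nonempty
  obtain ⟨e, t, -, ht, htfix⟩ := hcoord s hs
  obtain ⟨c₁, -, h₁⟩ := S.c₁.exists_isGU_scale hg
  obtain ⟨c₂, -, h₂⟩ := S.c₂.exists_isGU_scale hg
  obtain ⟨k, hk⟩ := slope_node S hq hA (hP_FN (M * q)) (hdeg_FN (M * q)) hV₁ hin hs ht htfix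
    hfix h₁ h₂ 1 (fun P => P.ord g) (fun P _ => by rw [Nat.cast_one, one_mul])
  refine ⟨_, c₁, c₂, (isGU₁_iff S hV₁ _).mp h₁, ?_, hk⟩
  have := (isGU₂_iff S hV₂ _).mp h₂
  rwa [smul_mul', wS_smul_algebraMap] at this

/-- **Slope `≡ 0` implies that all orders of the reduction are `≡ 0`**, at a level with
coordinates of thickness prime to `p`. -/
theorem fin_of_coord (p : ℕ) (hp : p.Prime) (hA : A.LiesOverPrime q)
    (hC : Stmt_CE_Coord p q M a b hab hq) {f : ↥(FNbar (M * q))}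
    (hfix : ∀ σ ∈ A.inertiaSubgroupIn ℚ, galF (M * q) σ • f = f)
    (hdiv : ∀ P : Place (AlgebraicClosure ℚ) ↥(FNbar (M * q)), (p : ℤ) ∣ P.ord f)
    {K : ℤ} (hK : HasSlope A q M a b hab hq f K) (hpK : (p : ℤ) ∣ K) :
    ∃ (c : AlgebraicClosure ℚ)
      (h : IsGaussUnit A (M * q) (algebraMap (AlgebraicClosure ℚ) ↥(FNbar (M * q)) c * f)),
      c ≠ 0 ∧
      ∀ Q : Place (kV A) ↥(redField A (FNbar (M * q)) (hasScale_laurentBaseChange A (M * q))),
        (p : ℤ) ∣ Q.ord (gaussRes A (M * q) ⟨_, h.mem⟩) := by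
  obtain ⟨F₂, _, _, S, hV₁, hred, hV₂, hin, hcoord⟩ := hC A hA
  obtain ⟨c₁, c₂, h₁, h₂, hv⟩ := hK
  have hf0 : f ≠ 0 := right_ne_zero_of_mul h₁.1
  have hc₁ : c₁ ≠ 0 := by
    rintro rfl
    exact h₁.1 (by rw [map_zero, zero_mul])
  have hc₂ : c₂ ≠ 0 := by
    rintro rfl
    exact h₂.1 (by rw [map_zero, zero_mul])
  have G₁ : S.c₁.IsGU (algebraMap (AlgebraicClosure ℚ) ↥(FNbar (M * q)) c₁ * f) :=
    (isGU₁_iff S hV₁ _).mpr h₁
  have G₂ : S.c₂.IsGU (algebraMap (AlgebraicClosure ℚ) ↥(FNbar (M * q)) c₂ * f) := by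
    rw [isGU₂_iff S hV₂, smul_mul', wS_smul_algebraMap]
    exact h₂
  have hrd : S.c₁.rd (algebraMap (AlgebraicClosure ℚ) ↥(FNbar (M * q)) c₁ * f)
      = gaussRes A (M * q) ⟨_, h₁.mem⟩ := by
    rw [S.c₁.rd_of_mem G₁.1]
    exact hred ⟨_, h₁.mem⟩ G₁.1
  refine ⟨c₁, h₁, hc₁, fun Q => ?_⟩
  rw [← hrd]
  by_cases hQ : Q ∈ S.c₁.good
  · rw [S.c₁.ord_rd_eq_sum (hP_FN (M * q)) G₁ Q hQ]
    refine Finset.dvd_sum fun P _ => ?_
    split_ifs
    · rw [ord_algebraMap_mul P hc₁]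
      exact hdiv P
    · exact dvd_zero _
  · rw [S.good₁] at hQ
    push Not at hQ
    obtain ⟨s, hs, rfl⟩ := hQ
    obtain ⟨e, t, hpe, ht, htfix⟩ := hcoord s hs
    obtain ⟨k, hk⟩ := slope_node S hq hA (hP_FN (M * q)) (hdeg_FN (M * q)) hV₁ hin hs ht htfix
      hfix G₁ G₂ p (fun P => P.ord f / p)
      (fun P _ => (Int.mul_ediv_cancel' (hdiv P)).symm)
    rw [hv] at hk
    have hv0 : A.valuation c₂ ≠ 0 := (Valuation.ne_zero_iff _).mpr hc₂
    have h3 := mul_left_cancel₀ hv0 hk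
    have hq0 := valuation_q_ne_zero (A := A) hq
    have h4 : K = (e : ℤ) * s.1.ord
        (S.c₁.rd (algebraMap (AlgebraicClosure ℚ) ↥(FNbar (M * q)) c₁ * f)) + p * k :=
      zpow_right_injective₀ (zero_lt_iff.mpr hq0) (valuation_q_lt_one hA).ne h3
    have h5 : (p : ℤ) ∣ (e : ℤ) * s.1.ord
        (S.c₁.rd (algebraMap (AlgebraicClosure ℚ) ↥(FNbar (M * q)) c₁ * f)) := by
      have : (e : ℤ) * s.1.ord
          (S.c₁.rd (algebraMap (AlgebraicClosure ℚ) ↥(FNbar (M * q)) c₁ * f)) = K - p * k := by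
        rw [h4]; ring
      rw [this]
      exact dvd_sub hpK (dvd_mul_right _ _)
    have hpp : Prime (p : ℤ) := Nat.prime_iff_prime_int.mp hp
    rcases hpp.dvd_or_dvd h5 with h6 | h6
    · exact absurd (Int.natCast_dvd_natCast.mp h6) hpe
    · exact h6

end Coord

end Fermat.Agent.S43.CompEis.H60
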