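/-
S43, leaf COMP-EIS (helper60): the assembly.

`compEisAt_core` : COMP-EIS at the level `M q` from
* HECKE at level `M q` (`Stmt_CE_Hecke`),
* COORD at a level `M' q ⊇ M q` (`Stmt_CE_Coord`),
* the independence of the slopes of the level (`hT`, from W-UP) and
* the descent of the divisibility of the orders of a reduced function (`hD`, from DESC).
-/
import Fermat.Agent.S43.CompEis.H60_Defs2
import Fermat.Agent.S43.CompEis.H60_Node
import Fermat.Agent.S43.CompEis.H60_Transfer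
import Fermat.Agent.S43.BadQAt
import Fermat.Agent.RED.H51_Basic
attribute [local instance 10000] SubalgebraClass.toAlgebra
attribute [local instance 10000] HahnSeries.powerSeriesAlgebra

set_option autoImplicit false
set_option synthInstance.maxHeartbeats 400000
set_option maxHeartbeats 1000000
set_option linter.style.haveILetI false
set_option linter.unusedSectionVars false

noncomputable section

open AlgebraicCurve ModularCurve

namespace Fermat.Agent.S43.CompEis.H60

open Fermat.Agent.BAD Fermat.Agent.S44 Fermat.Agent.S28.H73 Fermat.Agent.RED.H73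
open Fermat.Agent.S43.BadQ Fermat.Agent.RED

section Orders

variable {N N' : ℕ} [NeZero N] [NeZero N']

/-- Divisibility of the orders of a function does not depend on the level. -/
theorem dvd_ord_lift (h : N ∣ N') (n : ℤ) {x : ↥(FNbar N)}
    (hx : ∀ P : Place (AlgebraicClosure ℚ) ↥(FNbar N), n ∣ P.ord x)
    (P' : Place (AlgebraicClosure ℚ) ↥(FNbar N')) : n ∣ P'.ord (lift h x) := by
  have hint : (lift (N := N) (N' := N') h).toRingHom.IsIntegral :=
    (H51.stmt_FFB_finite _ _ _ (H95.stmt_HKA_isFF N) (H95.stmt_HKA_isFF N') _).1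
  letI := algebraAlong (lift (N := N) (N' := N') h)
  haveI := isScalarTower_along (lift (N := N) (N' := N') h)
  haveI := isIntegral_along (lift (N := N) (N' := N') h) hint
  have h1 := P'.ord_restrict (F := ↥(FNbar N)) x
  have h2 : lift h x = algebraMap ↥(FNbar N) ↥(FNbar N') x := rfl
  rw [h2, h1]
  exact Dvd.dvd.mul_left (hx _) _

end Orders

section Core

variable {A : ValuationSubring (AlgebraicClosure ℚ)}
variable {q M : ℕ} {a b : ℤ} {hab : a * q + b * M = 1} {hq : q.Prime} [NeZero (M * q)]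
variable {M' : ℕ} {a' b' : ℤ} {hab' : a' * q + b' * M' = 1} [NeZero (M' * q)]

/-- **COMP-EIS at the level `M q`** from HECKE at level `M q` and COORD at a level `M' q`,
`M q ∣ M' q`. -/
theorem compEisAt_core (p : ℕ) (hp : p.Prime) (hA : A.LiesOverPrime q)
    (hle : M * q ∣ M' * q)
    (hH : Stmt_CE_Hecke q M a b hab hq)
    (hC : Stmt_CE_Coord p q M' a' b' hab' hq)
    (hT : ∀ (x : ↥(FNbar (M * q))) (k : ℤ),
      HasSlope A q M' a' b' hab' hq (lift hle x) k → HasSlope A q M a b hab hq x k)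
    (hD : ∀ (f : ↥(gaussV A (M * q))) (f' : ↥(gaussV A (M' * q))),
      (((f' : ↥(gaussV A (M' * q))) : ↥(FNbar (M' * q))) : LaurentSeries (AlgebraicClosure ℚ)) =
        (((f : ↥(gaussV A (M * q))) : ↥(FNbar (M * q))) : LaurentSeries (AlgebraicClosure ℚ)) →
      (∀ Q' : Place (kV A)
          ↥(redField A (FNbar (M' * q)) (hasScale_laurentBaseChange A (M' * q))),
        (p : ℤ) ∣ Q'.ord (gaussRes A (M' * q) f')) →
      ∀ Q : Place (kV A) ↥(redField A (FNbar (M * q)) (hasScale_laurentBaseChange A (M * q))),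
        (p : ℤ) ∣ Q.ord (gaussRes A (M * q) f)) :
    CompEisAt p (M * q) A := by
  intro S t x hfix heig hne
  obtain ⟨ℓ, hℓ, hℓS, hℓN, hℓp, hneis⟩ := hne
  haveI : Fact p.Prime := ⟨hp⟩
  -- the point
  have hX0 : (p : ℤ) • jzModule.pt (M * q) p x = 0 := jzModule.pt_torsion (M * q) p x
  have hXfix : ∀ σ ∈ A.inertiaSubgroupIn ℚ,
      σ • jzModule.pt (M * q) p x = jzModule.pt (M * q) p x := by
    intro σ hσ
    rw [← jzModule.pt_gal, hfix σ hσ]
  have hXT : heckeOperatorBar (M * q) ⟨ℓ, hℓ⟩ (jzModule.pt (M * q) p x)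
      = t ℓ • jzModule.pt (M * q) p x := by
    rw [← jzModule.pt_T (M * q) p hℓ hℓN, heig ℓ hℓ hℓS hℓN hℓp]
    exact coe_intCast_smul p (M * q) (t ℓ) x
  obtain ⟨D, f, g, c, t₀, hf, hg, hc, hxD, hDf, hffix, hgfix, ht₀, hslope⟩ :=
    hH A hA p hp ⟨ℓ, hℓ⟩ hℓN (t ℓ) _ hX0 hXfix hXT
  -- slopes at the level `M' q`
  have hf' : lift hle f ≠ 0 := (map_ne_zero _).mpr hf
  have hg' : lift hle g ≠ 0 := (map_ne_zero _).mpr hg
  have hf'fix : ∀ σ ∈ A.inertiaSubgroupIn ℚ, galF (M' * q) σ • lift hle f = lift hle f :=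
    fun σ hσ => galF_fixed_transfer (coe_lift hle f) σ (hffix σ hσ)
  have hg'fix : ∀ σ ∈ A.inertiaSubgroupIn ℚ, galF (M' * q) σ • lift hle g = lift hle g :=
    fun σ hσ => galF_fixed_transfer (coe_lift hle g) σ (hgfix σ hσ)
  obtain ⟨kf, hkf'⟩ := exists_hasSlope_of_coord p hA hC hf' hf'fix
  obtain ⟨kg, hkg'⟩ := exists_hasSlope_of_coord p hA hC hg' hg'fix
  have hkf := hT f kf hkf'
  have hkg := hT g kg hkg'
  -- the eigenvector equation on slopes
  have h1 := hslope kf hkf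
  have h2 : HasSlope A q M a b hab hq
      (algebraMap (AlgebraicClosure ℚ) ↥(FNbar (M * q)) c * f ^ t₀ * g ^ p)
      (0 + t₀ * kf + p * kg) := ((hasSlope_const hc).mul (hkf.pow t₀)).mul (hkg.pow p)
  have h3 := h1.unique hA h2
  -- `p ∣ kf`
  have hpp : Prime (p : ℤ) := Nat.prime_iff_prime_int.mp hp
  have h4 : (p : ℤ) ∣ (((ℓ : ℕ) : ℤ) + 1 - t₀) * kf := by
    have : (((ℓ : ℕ) : ℤ) + 1 - t₀) * kf = p * kg := by linear_combination h3
    rw [this]
    exact dvd_mul_right _ _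
  have h5 : ¬ (p : ℤ) ∣ (((ℓ : ℕ) : ℤ) + 1 - t₀) := by
    intro hd
    have h6 := (ZMod.intCast_zmod_eq_zero_iff_dvd _ p).mpr hd
    push_cast at h6
    apply hneis
    have h7 : ((t ℓ : ℤ) : ZMod p) = ((t₀ : ℕ) : ZMod p) := by
      rw [← ht₀]; push_cast; rfl
    rw [h7]
    linear_combination -h6
  have hpk : (p : ℤ) ∣ kf := (hpp.dvd_or_dvd h4).resolve_left h5
  -- the orders of the reduction at the level `M' q`
  have hdiv : ∀ P : Place (AlgebraicClosure ℚ) ↥(FNbar (M * q)), (p : ℤ) ∣ P.ord f :=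
    fun P => ⟨_, (hDf P).symm⟩
  have hdiv' := dvd_ord_lift hle (p : ℤ) hdiv
  obtain ⟨c₁, hu', hc₁, hQ'⟩ := fin_of_coord p hp hA hC hf'fix hdiv' hkf' hpk
  -- back to the level `M q`
  have hcoe := const_mul_transfer (N := M * q) (N' := M' * q) (coe_lift hle f) c₁
  have hu : IsGaussUnit A (M * q)
      (algebraMap (AlgebraicClosure ℚ) ↥(FNbar (M * q)) c₁ * f) :=
    (isGaussUnit_transfer hcoe).mp hu'
  have hQ := hD ⟨_, hu.mem⟩ ⟨_, hu'.mem⟩ hcoe hQ'
  refine ⟨D, ⟨_, hu.mem⟩, hxD, hu.gaussRes_ne_zero, fun P => ?_, hQ⟩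
  rw [hDf P]
  exact (Fermat.Agent.RED.H17.ord_algebraMap_mul P hc₁ f).symm

end Core

end Fermat.Agent.S43.CompEis.H60
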