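/-
S43, leaf COMP-EIS, sub-leaf **W-UP** (helper80): the Atkin-Lehner involution `w_q` of level
`M R q` extends the one of level `M q`.

`stmt_CE_WUp : H60.Stmt_CE_WUp`.

Proof: both sides are `ℚ̄`-algebra homomorphisms `F_{M q} → ℚ̄((t))`; they agree on the generators
`j(t^D)`, `D ∣ M q` (helper88's `wqHom_jdF`, `wqHom_jdF_mul` at both levels).
-/
import Fermat.Agent.S43.CompEis.H60_Defs

set_option autoImplicit false
set_option synthInstance.maxHeartbeats 400000
set_option maxHeartbeats 1000000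
set_option linter.unusedSectionVars false

noncomputable section

open AlgebraicCurve ModularCurve

namespace Fermat.Agent.S43.CompEis.H80

open Fermat.Agent.BAD Fermat.Agent.S24 Fermat.Agent.BAD.H88 Fermat.Agent.S43.BadQ

theorem wup_neZero_R (q M R : ℕ) [NeZero (M * R * q)] : NeZero R :=
  ⟨fun h => NeZero.ne (M * R * q) (by rw [h, mul_zero, zero_mul])⟩

section

variable (q M R : ℕ) [NeZero (M * q)] [NeZero (M * R * q)]

theorem wup_le : FNbar (M * q) ≤ FNbar (M * R * q) := by
  have : NeZero R := wup_neZero_R q M R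
  have h1 : M * R * q = M * q * R := by ring
  rw [h1]
  intro x hx
  have h2 := (heckeAlphaBar Kbar (M * q) R ⟨x, hx⟩).2
  rw [coe_heckeAlphaBar] at h2
  exact h2

/-- The inclusion `F_{M q} → F_{M R q}`. -/
def wupIncl : FN (M * q) →ₐ[Kbar] FN (M * R * q) :=
  IntermediateField.inclusion (wup_le q M R)

theorem coe_wupIncl (x : FN (M * q)) :
    ((wupIncl q M R x : FN (M * R * q)) : LaurentSeries Kbar) = (x : LaurentSeries Kbar) :=
  IntermediateField.coe_inclusion (wup_le q M R) x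

theorem wupIncl_jdF (D : ℕ) [NeZero D] (hD : D ∣ M * q) (hD' : D ∣ M * R * q) :
    wupIncl q M R (jdF (M * q) D hD) = jdF (M * R * q) D hD' :=
  Subtype.ext (coe_wupIncl q M R _)

variable (a b : ℤ) (hab : a * q + b * M = 1) (a' b' : ℤ)
  (hab' : a' * q + b' * ((M * R : ℕ) : ℤ) = 1) (hq : q.Prime)

include hab hab' hq in
theorem wup_comp :
    (wq q (M * R) a' b' hab' hq).toAlgHom.comp (wupIncl q M R) =
      (wupIncl q M R).comp (wq q M a b hab hq).toAlgHom := by
  have hR : NeZero R := wup_neZero_R q M R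
  apply algHom_ext_of_adjoin _ (adjoin_jdF (M * q))
  rintro x ⟨D, hD0, hD, rfl⟩
  rw [AlgHom.comp_apply, AlgHom.comp_apply]
  rcases dvd_cases q M a b hab hq D hD with ⟨e, he⟩ | ⟨d, e, rfl, he⟩
  · have : NeZero (D * q) := ⟨(Nat.mul_pos (Nat.pos_of_ne_zero (NeZero.ne D)) hq.pos).ne'⟩
    have hDM : D ∣ M := ⟨e, he⟩
    have hDMR : D ∣ M * R := Dvd.dvd.mul_right hDM R
    have h1 : (wq q M a b hab hq).toAlgHom (jdF (M * q) D hD)
        = jdF (M * q) (D * q) (Nat.mul_dvd_mul_right hDM q) :=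
      wqHom_jdF q M a b hab hq D hDM
    have h2 : (wq q (M * R) a' b' hab' hq).toAlgHom
        (jdF (M * R * q) D (Dvd.dvd.mul_right hDMR q))
        = jdF (M * R * q) (D * q) (Nat.mul_dvd_mul_right hDMR q) :=
      wqHom_jdF q (M * R) a' b' hab' hq D hDMR
    rw [h1, wupIncl_jdF q M R D hD (Dvd.dvd.mul_right hDMR q), h2,
      wupIncl_jdF q M R (D * q) _ (Nat.mul_dvd_mul_right hDMR q)]
  · have hdpos : 0 < d := by
      rcases Nat.eq_zero_or_pos d with h | h
      · exfalso; apply NeZero.ne (d * q); rw [h, zero_mul]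
      · exact h
    have : NeZero d := ⟨hdpos.ne'⟩
    have hdM : d ∣ M := ⟨e, he⟩
    have hdMR : d ∣ M * R := Dvd.dvd.mul_right hdM R
    have h1 : (wq q M a b hab hq).toAlgHom (jdF (M * q) (d * q) hD)
        = jdF (M * q) d (Dvd.dvd.mul_right hdM q) :=
      wqHom_jdF_mul q M a b hab hq d hdM
    have h2 : (wq q (M * R) a' b' hab' hq).toAlgHom
        (jdF (M * R * q) (d * q) (Nat.mul_dvd_mul_right hdMR q))
        = jdF (M * R * q) d (Dvd.dvd.mul_right hdMR q) :=
      wqHom_jdF_mul q (M * R) a' b' hab' hq d hdMR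
    rw [h1, wupIncl_jdF q M R (d * q) hD (Nat.mul_dvd_mul_right hdMR q), h2,
      wupIncl_jdF q M R d _ (Dvd.dvd.mul_right hdMR q)]

end

/-- **W-UP**. -/
theorem stmt_CE_WUp : H60.Stmt_CE_WUp := by
  intro q M R a b hab a' b' hab' hq _ _ x y hxy
  have hy : y = wupIncl q M R x := Subtype.ext (hxy.trans (coe_wupIncl q M R x).symm)
  rw [hy]
  have h := congrArg (fun f : FN (M * q) →ₐ[Kbar] FN (M * R * q) => f x)
    (wup_comp q M R a b hab a' b' hab' hq)
  have h2 := congrArg (fun z : FN (M * R * q) => (z : LaurentSeries Kbar)) h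
  simp only [AlgHom.comp_apply] at h2
  rw [coe_wupIncl] at h2
  exact h2

end Fermat.Agent.S43.CompEis.H80
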