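import Fermat.Agent.S43.CompEis.H60_Defs
import Fermat.Agent.S43.H88_WHecke
import Fermat.Agent.GTor.H2_HKalg
import Fermat.Agent.GTor.H2_GalHecke
import Fermat.Agent.RED.H51_HKA
import Fermat.Agent.RED.H51_NDFinal
import Fermat.Agent.RED.H10_NormRedAbs
import Fermat.Agent.RED.H36_RM
import Fermat.Agent.BAD.H82_Deg
import Fermat.Agent.BAD.H82_FrGauss
attribute [local instance 10000] SubalgebraClass.toAlgebra
attribute [local instance 10000] HahnSeries.powerSeriesAlgebra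

/-!
# S43, COMP-EIS, leaf NORM-VAL (helper9): `Stmt_CE_NormVal`

`N = M q`, `q ∤ M`, `A` over `q`, `ℓ ∤ N` a prime.  For a Kummer pair `(D, f)` (`n D = div f`) the
pair `(D', f') = (α_* β^* D, N_α (β f))` is a Kummer pair of `T_ℓ [D]` (helper2's
`heckeNormFn`, `correspondence_ord`), `D'` is fixed by the Galois automorphisms fixing `D`
(`divisor_correspondence_smul`), and

* `gaussUnit_heckeNormFn` : `c f` Gauss unit of level `N`  ⇒  `c ^ (ℓ + 1) f'` Gauss unit;
* `wq_heckeNormFn`        : `w_q (N_α (β f)) = N_α (β (w_q f))`.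

The Gauss valuation of level `N ℓ` is the only extension of the Gauss valuation of level `N`:
both residue fields are `k(j(t^d))` for `d ∣ M`, resp. `d ∣ M ℓ` (helper82's (D1)), of relative
degree `ℓ + 1 = [F_{N ℓ} : F_N]`, so the norm maps the Gauss ring to the Gauss ring (helper10's
`stmt_NormRedAbs`).

This file contains no `sorry`.
-/

set_option autoImplicit false
set_option synthInstance.maxHeartbeats 400000
set_option maxHeartbeats 1000000
set_option linter.unusedSectionVars false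
set_option linter.style.haveILetI false

noncomputable section

open AlgebraicCurve ModularCurve IntermediateField

namespace Fermat.Agent.S43.CompEis.H9

open Fermat.Agent.BAD Fermat.Agent.S28.H73 Fermat.Agent.RED.H73 Fermat.Agent.RED
open Fermat.Agent.S43.BadQ Fermat.Agent.S43.CompEis.H60 Fermat.Agent.S24

/-! ## Abstract part: the norm maps the Gauss ring to the Gauss ring -/

section Abs

variable {C : Type} [Field C] (O : ValuationSubring C)
variable {F F' : IntermediateField C (LaurentSeries C)} (hle : F ≤ F')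
variable (h : HasScale O F) (h' : HasScale O F')

/-- If `[F' : F] = [F~' : F~]` the norm maps the Gauss ring of `F'` into the Gauss ring of `F`. -/
theorem norm_mem_gaussValSub
    (hfin : FiniteAlong C (IntermediateField.inclusion hle))
    (hdeg : F.relfinrank F' = (redField O F h).relfinrank (redField O F' h'))
    (y : ↥F') (hy : y ∈ gaussValSub O F' h') :
    (letI := algebraAlong (IntermediateField.inclusion hle); Algebra.norm ↥F y)
      ∈ gaussValSub O F h := by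
  letI := algebraAlong (IntermediateField.inclusion hle)
  letI := algebraAlong (IntermediateField.inclusion (H51.redField_mono O hle h h'))
  haveI : Module.Finite ↥F ↥F' := hfin
  obtain ⟨hN, -⟩ := H10.stmt_NormRedAbs ↥F ↥F' ↥(redField O F h) ↥(redField O F' h')
    (gaussValSub O F h) (gaussValSub O F' h') (gaussResF' O h) (gaussResF' O h')
    (fun a => Iff.rfl) (gaussResF'_surjective O h')
    (fun a => by
      rw [isUnit_iff_gaussResF_ne_zero O h', not_not]
      constructor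
      · intro h0
        exact congrArg Subtype.val h0
      · intro h0
        exact Subtype.ext h0)
    (fun a ha => Subtype.ext rfl)
    (by
      rw [H51.finrank_along_inclusion hle,
        H51.finrank_along_inclusion (H51.redField_mono O hle h h'), hdeg])
    ⟨y, hy⟩
  exact hN

/-- Units of the Gauss ring, in the form of `H60.IsGaussUnit`. -/
def IsGU (x : ↥F) : Prop := x ≠ 0 ∧ x ∈ gaussValSub O F h ∧ x⁻¹ ∈ gaussValSub O F h

/-- If `[F' : F] = [F~' : F~]` the norm maps Gauss units to Gauss units. -/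
theorem norm_isGU
    (hfin : FiniteAlong C (IntermediateField.inclusion hle))
    (hdeg : F.relfinrank F' = (redField O F h).relfinrank (redField O F' h'))
    (y : ↥F') (hy : IsGU O h' y) :
    IsGU O h (letI := algebraAlong (IntermediateField.inclusion hle); Algebra.norm ↥F y) := by
  obtain ⟨hy0, hy1, hy2⟩ := hy
  have h1 := norm_mem_gaussValSub O hle h h' hfin hdeg y hy1
  have h2 := norm_mem_gaussValSub O hle h h' hfin hdeg y⁻¹ hy2
  letI := algebraAlong (IntermediateField.inclusion hle)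
  haveI : Module.Finite ↥F ↥F' := hfin
  have hn0 : Algebra.norm ↥F y ≠ 0 := Algebra.norm_ne_zero_iff.mpr hy0
  refine ⟨hn0, h1, ?_⟩
  have e : (Algebra.norm ↥F y)⁻¹ = Algebra.norm ↥F y⁻¹ := by
    have h3 : Algebra.norm ↥F y * Algebra.norm ↥F y⁻¹ = 1 := by
      rw [← map_mul, mul_inv_cancel₀ hy0, map_one]
    exact (eq_inv_of_mul_eq_one_right h3).symm
  rw [e]
  exact h2

end Abs

/-! ## The degrees -/

section Deg

variable (q M : ℕ) (a b : ℤ) (hab : a * q + b * M = 1) (hq : q.Prime) [NeZero (M * q)]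
variable (ℓ : ℕ) (hℓ : ℓ.Prime) (hℓN : ¬ ℓ ∣ M * q)

theorem redField_congr (A : ValuationSubring Kbar)
    {F F' : IntermediateField Kbar (LaurentSeries Kbar)} (e : F = F')
    (h : HasScale A F) (h' : HasScale A F') : redField A F h = redField A F' h' := by
  subst e
  rfl

include hℓ hℓN in
/-- `[F_{N ℓ} : F_N] = ℓ + 1`. -/
theorem relfinrank_alpha [NeZero (M * q * ℓ)] :
    (FNbar (M * q)).relfinrank (FNbar (M * q * ℓ)) = ℓ + 1 :=
  H82.relfinrank_FM_FN ℓ (M * q) hℓ hℓN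

include hab hq hℓ hℓN in
/-- The residue degree of the Gauss valuations of levels `N ℓ ∣ N` at a prime over `q ‖ N` is the
degree. -/
theorem relfinrank_hecke_eq [NeZero (M * q * ℓ)]
    (A : ValuationSubring Kbar) (hA : A.LiesOverPrime q) :
    (FNbar (M * q)).relfinrank (FNbar (M * q * ℓ))
      = (redField A (FNbar (M * q)) (hasScale_laurentBaseChange A (M * q))).relfinrank
          (redField A (FNbar (M * q * ℓ)) (hasScale_laurentBaseChange A (M * q * ℓ))) := by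
  have hM0 : M ≠ 0 := fun h0 => NeZero.ne (M * q) (by rw [h0, zero_mul])
  haveI : NeZero M := ⟨hM0⟩
  haveI : NeZero (M * ℓ) := ⟨Nat.mul_ne_zero hM0 hℓ.ne_zero⟩
  haveI : NeZero (M * ℓ * q) := ⟨Nat.mul_ne_zero (Nat.mul_ne_zero hM0 hℓ.ne_zero) hq.ne_zero⟩
  have hqM : ¬ q ∣ M := H88.q_not_dvd_M q M a b hab hq
  have hqℓ : q ≠ ℓ := by
    rintro rfl
    exact hℓN (Dvd.intro_left M rfl)
  have hℓM : ¬ ℓ ∣ M := fun hd => hℓN (Dvd.dvd.mul_right hd q)
  have hqMℓ : ¬ q ∣ M * ℓ := by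
    intro hd
    rcases (Nat.Prime.dvd_mul hq).mp hd with hd | hd
    · exact hqM hd
    · exact hqℓ ((Nat.prime_dvd_prime_iff_eq hq hℓ).mp hd)
  have hcop : Nat.Coprime q (M * ℓ) := (Nat.Prime.coprime_iff_not_dvd hq).mpr hqMℓ
  obtain ⟨a', b', hab'⟩ : ∃ a' b' : ℤ, a' * q + b' * ((M * ℓ : ℕ) : ℤ) = 1 := by
    obtain ⟨u, v, huv⟩ := Nat.isCoprime_iff_coprime.mpr hcop
    exact ⟨u, v, huv⟩
  have e1 : redField A (FNbar (M * q)) (hasScale_laurentBaseChange A (M * q))
      = redField A (FNbar M) (hasScale_laurentBaseChange A M) :=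
    H82.redField_eq_redField q M a b hab hq A hA
  have e2 : redField A (FNbar (M * ℓ * q)) (hasScale_laurentBaseChange A (M * ℓ * q))
      = redField A (FNbar (M * ℓ)) (hasScale_laurentBaseChange A (M * ℓ)) :=
    H82.redField_eq_redField q (M * ℓ) a' b' hab' hq A hA
  have e3 : redField A (FNbar (M * q * ℓ)) (hasScale_laurentBaseChange A (M * q * ℓ))
      = redField A (FNbar (M * ℓ * q)) (hasScale_laurentBaseChange A (M * ℓ * q)) :=
    redField_congr A (by rw [show M * q * ℓ = M * ℓ * q by ring]) _ _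
  rw [relfinrank_alpha q M ℓ hℓ hℓN, e1, e3, e2,
    ← H36.relfinrank_level_eq (N := M) (M := M * ℓ) (Dvd.intro ℓ rfl) hq hqMℓ A hA]
  exact (H82.relfinrank_FM_FN ℓ M hℓ hℓM).symm

end Deg

/-! ## The norm of a Gauss unit -/

section Unit

variable (q M : ℕ) (a b : ℤ) (hab : a * q + b * M = 1) (hq : q.Prime) [NeZero (M * q)]
variable (ℓ : ℕ) [NeZero ℓ] (hℓ : ℓ.Prime) (hℓN : ¬ ℓ ∣ M * q)
variable (A : ValuationSubring Kbar) (hA : A.LiesOverPrime q)

theorem neZero_level : NeZero (M * q * ℓ) :=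
  ⟨Nat.mul_ne_zero (NeZero.ne (M * q)) (NeZero.ne ℓ)⟩

/-- `β` maps Gauss units to Gauss units. -/
theorem isGaussUnit_beta (N : ℕ) [NeZero N] (x : ↥(FNbar N)) (hx : IsGaussUnit A N x) :
    IsGaussUnit A (N * ℓ) (heckeBetaBar Kbar N ℓ x) := by
  obtain ⟨hx0, hx1, hx2⟩ := hx
  refine ⟨?_, ?_, ?_⟩
  · intro h0
    exact hx0 ((heckeBetaBar Kbar N ℓ).toRingHom.injective (by simpa using h0))
  · show ((heckeBetaBar Kbar N ℓ x : _) : LaurentSeries Kbar) ∈ gaussRingV A
    rw [coe_heckeBetaBar]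
    exact H82.Fr_mem_gaussRingV A ℓ hx1
  · rw [← map_inv₀]
    show ((heckeBetaBar Kbar N ℓ x⁻¹ : _) : LaurentSeries Kbar) ∈ gaussRingV A
    rw [coe_heckeBetaBar]
    exact H82.Fr_mem_gaussRingV A ℓ hx2

include hab hq hℓ hℓN hA in
/-- The norm along `α` maps Gauss units of level `N ℓ` to Gauss units of level `N`. -/
theorem isGaussUnit_norm (y : ↥(FNbar (M * q * ℓ)))
    (hfin : FiniteAlong Kbar (heckeAlphaBar Kbar (M * q) ℓ))
    (hy : IsGaussUnit A (M * q * ℓ) y) :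
    IsGaussUnit A (M * q)
      (letI := algebraAlong (heckeAlphaBar Kbar (M * q) ℓ); Algebra.norm ↥(FNbar (M * q)) y) := by
  haveI := neZero_level q M ℓ
  exact norm_isGU A (Fermat.Agent.S18.modularFunctionFieldBar_mono (Dvd.intro ℓ rfl))
    (hasScale_laurentBaseChange A (M * q)) (hasScale_laurentBaseChange A (M * q * ℓ)) hfin
    (relfinrank_hecke_eq q M a b hab hq ℓ hℓ hℓN A hA) y hy

include hℓ hℓN in
/-- `[F_{N ℓ} : F_N] = ℓ + 1` along `α`. -/
theorem finrank_alpha :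
    @Module.finrank ↥(FNbar (M * q)) ↥(FNbar (M * q * ℓ)) _ _
      (algebraAlong (heckeAlphaBar Kbar (M * q) ℓ)).toModule = ℓ + 1 := by
  haveI := neZero_level q M ℓ
  rw [← relfinrank_alpha q M ℓ hℓ hℓN]
  exact H51.finrank_along_inclusion
    (Fermat.Agent.S18.modularFunctionFieldBar_mono (Dvd.intro ℓ rfl))

include hab hq hℓ hℓN hA in
/-- **The Gauss-unit clause of NORM-VAL.** -/
theorem gaussUnit_heckeNormFn (hfin : FiniteAlong Kbar (heckeAlphaBar Kbar (M * q) ℓ))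
    (f : ↥(FNbar (M * q))) (c : Kbar)
    (hc : IsGaussUnit A (M * q) (algebraMap Kbar ↥(FNbar (M * q)) c * f)) :
    IsGaussUnit A (M * q)
      (algebraMap Kbar ↥(FNbar (M * q)) (c ^ (ℓ + 1))
        * Fermat.Agent.GTor.H2.heckeNormFn Kbar (M * q) ℓ f) := by
  have h1 := isGaussUnit_beta ℓ A (M * q) _ hc
  have h2 := isGaussUnit_norm q M a b hab hq ℓ hℓ hℓN A hA _ hfin h1
  have e : (letI := algebraAlong (heckeAlphaBar Kbar (M * q) ℓ);
      Algebra.norm ↥(FNbar (M * q))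
        (heckeBetaBar Kbar (M * q) ℓ (algebraMap Kbar ↥(FNbar (M * q)) c * f)))
      = algebraMap Kbar ↥(FNbar (M * q)) (c ^ (ℓ + 1))
        * Fermat.Agent.GTor.H2.heckeNormFn Kbar (M * q) ℓ f := by
    letI := algebraAlong (heckeAlphaBar Kbar (M * q) ℓ)
    haveI := isScalarTower_along (heckeAlphaBar Kbar (M * q) ℓ)
    haveI : Module.Finite ↥(FNbar (M * q)) ↥(FNbar (M * q * ℓ)) := hfin
    rw [map_mul, AlgHom.commutes, map_mul,
      IsScalarTower.algebraMap_apply Kbar ↥(FNbar (M * q)) ↥(FNbar (M * q * ℓ)),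
      Algebra.norm_algebraMap, finrank_alpha q M ℓ hℓ hℓN, ← map_pow]
    rfl
  rw [← e]
  exact h2

end Unit

/-! ## `w_q` commutes with `N_α ∘ β` -/

section W

variable (q M : ℕ) (a b : ℤ) (hab : a * q + b * M = 1) (hq : q.Prime) [NeZero (M * q)]
variable (ℓ : ℕ) [NeZero ℓ] (a' b' : ℤ) (hab' : a' * q + b' * ((M * ℓ : ℕ) : ℤ) = 1)

include hab' in
/-- `w_q (N_α (β f)) = N_α (β (w_q f))`. -/
theorem wq_heckeNormFn (f : ↥(FNbar (M * q))) :
    H88.wq q M a b hab hq (Fermat.Agent.GTor.H2.heckeNormFn Kbar (M * q) ℓ f)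
      = Fermat.Agent.GTor.H2.heckeNormFn Kbar (M * q) ℓ (H88.wq q M a b hab hq f) := by
  letI := algebraAlong (heckeAlphaBar Kbar (M * q) ℓ)
  have hα := Fermat.Agent.S43.H88.wUp_comp_alpha q M a b hab hq ℓ a' b' hab'
  have hβ := Fermat.Agent.S43.H88.wUp_comp_beta q M a b hab hq ℓ a' b' hab'
  have key := Algebra.norm_eq_of_equiv_equiv
    ((H88.wq q M a b hab hq : ↥(FNbar (M * q)) ≃ₐ[Kbar] ↥(FNbar (M * q))) :
      ↥(FNbar (M * q)) ≃+* ↥(FNbar (M * q)))
    ((Fermat.Agent.S43.H88.wUp q M ℓ a' b' hab' :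
        ↥(FNbar (M * q * ℓ)) ≃ₐ[Kbar] ↥(FNbar (M * q * ℓ))) :
      ↥(FNbar (M * q * ℓ)) ≃+* ↥(FNbar (M * q * ℓ)))
    (RingHom.ext fun x =>
      (congrArg (fun g : ↥(FNbar (M * q)) →ₐ[Kbar] ↥(FNbar (M * q * ℓ)) => g x) hα).symm)
    (heckeBetaBar Kbar (M * q) ℓ f)
  have h2 : Fermat.Agent.S43.H88.wUp q M ℓ a' b' hab' (heckeBetaBar Kbar (M * q) ℓ f)
      = heckeBetaBar Kbar (M * q) ℓ (H88.wq q M a b hab hq f) :=
    congrArg (fun g : ↥(FNbar (M * q)) →ₐ[Kbar] ↥(FNbar (M * q * ℓ)) => g f) hβ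
  show H88.wq q M a b hab hq (Algebra.norm ↥(FNbar (M * q)) (heckeBetaBar Kbar (M * q) ℓ f))
    = Algebra.norm ↥(FNbar (M * q)) (heckeBetaBar Kbar (M * q) ℓ (H88.wq q M a b hab hq f))
  rw [← h2, key]
  exact RingEquiv.apply_symm_apply (H88.wq q M a b hab hq).toRingEquiv _

end W

/-! ## NORM-VAL -/

/-- **NORM-VAL.** -/
theorem stmt_CE_NormVal (q M : ℕ) (a b : ℤ) (hab : a * q + b * M = 1) (hq : q.Prime)
    [NeZero (M * q)] : Stmt_CE_NormVal q M a b hab hq := by
  intro A hA ℓ hℓN n D f hf hD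
  haveI : NeZero (ℓ : ℕ) := ⟨ℓ.2.ne_zero⟩
  obtain ⟨hα, hβ, hP, hfin, hFI, hN⟩ := H51.stmt_HKA (M * q) (ℓ : ℕ)
  -- Bezout at level `M ℓ`
  have hqℓ : (q : ℕ) ≠ ℓ := by
    rintro h
    exact hℓN (h ▸ Dvd.intro_left M rfl)
  have hcop : Nat.Coprime q (M * ℓ) := by
    apply Nat.Coprime.mul_right
    · exact (Nat.Prime.coprime_iff_not_dvd hq).mpr (H88.q_not_dvd_M q M a b hab hq)
    · exact (Nat.coprime_primes hq ℓ.2).mpr hqℓ
  obtain ⟨a', b', hab'⟩ : ∃ a' b' : ℤ, a' * q + b' * ((M * ℓ : ℕ) : ℤ) = 1 := by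
    obtain ⟨u, v, huv⟩ := Nat.isCoprime_iff_coprime.mpr hcop
    exact ⟨u, v, huv⟩
  have hw : ∀ g : ↥(FNbar (M * q)),
      wS q M a b hab hq • Fermat.Agent.GTor.H2.heckeNormFn Kbar (M * q) ℓ g
        = Fermat.Agent.GTor.H2.heckeNormFn Kbar (M * q) ℓ (wS q M a b hab hq • g) := fun g =>
    wq_heckeNormFn q M a b hab hq ℓ a' b' hab' g
  refine ⟨Pic0.degZeroCorrespondence (heckeBetaBar _ (M * q) ℓ) (heckeAlphaBar _ (M * q) ℓ)
      hβ hα hFI D, Fermat.Agent.GTor.H2.heckeNormFn Kbar (M * q) ℓ f,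
    Fermat.Agent.GTor.H2.heckeNormFn_ne_zero Kbar (M * q) ℓ hfin hf, ?_, ?_, ?_, ?_, ?_⟩
  · rw [heckeOperatorBar_apply, heckeOperatorAlong_eq hα hβ hFI hfin hN]
    rfl
  · intro P
    exact Fermat.Agent.GTor.H2.correspondence_ord Kbar (M * q) ℓ hα hβ hfin hN (n : ℤ) _ hf hD P
  · intro σ hσ
    have h1 := Fermat.Agent.GTor.H2.divisor_correspondence_smul (galF (M * q) σ)
      (galF (M * q * ℓ) σ) (heckeBetaBar Kbar (M * q) ℓ) (heckeAlphaBar Kbar (M * q) ℓ) hβ hα
      (Fermat.Agent.GTor.H2.intertwines_heckeBetaBar (M * q) ℓ σ)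
      (Fermat.Agent.GTor.H2.intertwines_heckeAlphaBar (M * q) ℓ σ)
      (D : Divisor (AlgebraicClosure ℚ) ↥(FNbar (M * q)))
    rw [hσ] at h1
    exact h1.symm
  · intro c hc
    exact gaussUnit_heckeNormFn q M a b hab hq ℓ ℓ.2 hℓN A hA hfin f c hc
  · intro c hc
    rw [hw]
    exact gaussUnit_heckeNormFn q M a b hab hq ℓ ℓ.2 hℓN A hA hfin _ c hc

end Fermat.Agent.S43.CompEis.H9
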