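import Fermat.Agent.S43.CompEis.H60_Defs2
import Fermat.Agent.S43.CompEis.H60_Slope
import Fermat.Agent.S43.CompEis.H9_NormVal
import Fermat.Agent.S36.H61_B0
import Fermat.Agent.RED.H36_Fin
import Fermat.Agent.RED.H95_IsFF

/-!
# S43, COMP-EIS, leaf HECKE (helper9): `Stmt_CE_Hecke`

`x ∈ J₀(M q)[p]` inertia-fixed with `T_ℓ x = t x`.  Then

1. (`S36.H61.stmt_NUB0`) `x = [D]`, `D` inertia-stable, `p D = div f`, `f` inertia-fixed;
2. (`H9.stmt_CE_NormVal`) `T_ℓ x = [D']`, `p D' = div f'`, `D'` inertia-stable, and `f'` has slope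
   `(ℓ + 1) k` if `f` has slope `k` (`hasSlope_of_units`);
3. `[D'] = t₀ [D]`, `t₀ ≡ t mod p`, so `D' - t₀ D = div g` with `g` inertia-fixed
   (`S36.H61.exists_fixed_function`, `n = 1`), and `f' = c⁻¹ f ^ t₀ g ^ p` for a constant `c`.

This file contains no `sorry`.
-/

set_option autoImplicit false
set_option synthInstance.maxHeartbeats 400000
set_option maxHeartbeats 1000000
set_option linter.unusedSectionVars false
set_option linter.style.haveILetI false

noncomputable section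

open AlgebraicCurve ModularCurve

namespace Fermat.Agent.S43.CompEis.H9H

open Fermat.Agent.BAD Fermat.Agent.S28.H73 Fermat.Agent.RED.H73 Fermat.Agent.RED
open Fermat.Agent.S43.BadQ Fermat.Agent.S43.CompEis.H60

section Slope

variable (A : ValuationSubring (AlgebraicClosure ℚ))
variable (q M : ℕ) (a b : ℤ) (hab : a * q + b * M = 1) (hq : q.Prime) [NeZero (M * q)]

/-- The slope of a function `f'` whose unit scalings are the `n`-th powers of those of `f`. -/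
theorem hasSlope_of_units (n : ℕ) (f f' : ↥(FNbar (M * q)))
    (h1 : ∀ c : AlgebraicClosure ℚ,
      IsGaussUnit A (M * q) (algebraMap (AlgebraicClosure ℚ) ↥(FNbar (M * q)) c * f) →
      IsGaussUnit A (M * q) (algebraMap (AlgebraicClosure ℚ) ↥(FNbar (M * q)) (c ^ n) * f'))
    (h2 : ∀ c : AlgebraicClosure ℚ,
      IsGaussUnit A (M * q) (algebraMap (AlgebraicClosure ℚ) ↥(FNbar (M * q)) c *
        (wS q M a b hab hq • f)) →
      IsGaussUnit A (M * q) (algebraMap (AlgebraicClosure ℚ) ↥(FNbar (M * q)) (c ^ n) *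
        (wS q M a b hab hq • f')))
    (k : ℤ) (hk : HasSlope A q M a b hab hq f k) :
    HasSlope A q M a b hab hq f' ((n : ℤ) * k) := by
  obtain ⟨c₁, c₂, g₁, g₂, hv⟩ := hk
  refine ⟨c₁ ^ n, c₂ ^ n, h1 c₁ g₁, h2 c₂ g₂, ?_⟩
  rw [map_pow, map_pow, hv, mul_pow, mul_comm (n : ℤ) k, zpow_mul, zpow_natCast]

end Slope

/-- **HECKE.** -/
theorem stmt_CE_Hecke (q M : ℕ) (a b : ℤ) (hab : a * q + b * M = 1) (hq : q.Prime)
    [NeZero (M * q)] : Stmt_CE_Hecke q M a b hab hq := by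
  intro A hA p hp ℓ hℓN t x hpx hfix hT
  have hpx' : p • x = 0 := by
    rw [← natCast_zsmul]
    exact hpx
  -- step 1: Hilbert 90
  obtain ⟨D, f, hf0, hxD, hDf, hDfix, hffix, -, -⟩ :=
    Fermat.Agent.S36.H61.stmt_NUB0 (M * q) (A.inertiaSubgroupIn ℚ) p x hpx' hfix
  -- step 2: the Hecke operator on Kummer pairs
  obtain ⟨D', f', hf'0, hTD, hD'f', hD'fix, hU1, hU2⟩ :=
    Fermat.Agent.S43.CompEis.H9.stmt_CE_NormVal q M a b hab hq A hA ℓ hℓN p D f hf0 hDf
  -- the residue `t₀` of `t`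
  have hp0 : (p : ℤ) ≠ 0 := by exact_mod_cast hp.ne_zero
  obtain ⟨t₀, ht₀⟩ : ∃ t₀ : ℕ, (t₀ : ℤ) = t % p :=
    ⟨(t % p).toNat, Int.toNat_of_nonneg (Int.emod_nonneg _ hp0)⟩
  have htmod : ((t₀ : ℤ) : ZMod p) = (t : ZMod p) := by
    rw [ht₀]
    exact ZMod.intCast_mod t p
  have hdecomp : t = (t₀ : ℤ) + (t / p) * p := by
    rw [ht₀, mul_comm]
    exact (Int.emod_add_mul_ediv t p).symm
  have hcls : (Pic0.mk D' : JZero (M * q)) = t₀ • (Pic0.mk D : JZero (M * q)) := by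
    rw [← hTD, ← hxD, hT]
    conv_lhs => rw [hdecomp]
    rw [add_zsmul, mul_zsmul, hpx, smul_zero, add_zero, natCast_zsmul]
  -- step 3: the difference `D' - t₀ D` is principal and inertia-stable
  have hE0 : (Pic0.mk (D' - t₀ • D) : JZero (M * q)) = 0 := by
    have h1 : (Pic0.mk (D' - t₀ • D) : JZero (M * q))
        = Pic0.mk D' - t₀ • (Pic0.mk D : JZero (M * q)) := rfl
    rw [h1, hcls, sub_self]
  have hEfix : ∀ σ : ↥(A.inertiaSubgroupIn ℚ),
      Fermat.Agent.S36.H61.rhoH (M * q) (A.inertiaSubgroupIn ℚ) σ •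
        ((D' - t₀ • D : Divisor.degZero (K := AlgebraicClosure ℚ) (F := ↥(FNbar (M * q)))) :
          Divisor (AlgebraicClosure ℚ) ↥(FNbar (M * q)))
        = ((D' - t₀ • D : Divisor.degZero (K := AlgebraicClosure ℚ)
            (F := ↥(FNbar (M * q)))) : Divisor (AlgebraicClosure ℚ) ↥(FNbar (M * q))) := by
    intro σ
    have h1 := hDfix σ.1 σ.2
    have h2 := hD'fix σ.1 h1
    show galF (M * q) (σ : GalQ) •
      ((D' : Divisor (AlgebraicClosure ℚ) ↥(FNbar (M * q)))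
        - t₀ • (D : Divisor (AlgebraicClosure ℚ) ↥(FNbar (M * q))))
      = (D' : Divisor (AlgebraicClosure ℚ) ↥(FNbar (M * q)))
        - t₀ • (D : Divisor (AlgebraicClosure ℚ) ↥(FNbar (M * q)))
    rw [smul_sub, smul_comm, h1, h2]
  obtain ⟨g, hg0, hEg, hgfix, -⟩ :=
    Fermat.Agent.S36.H61.exists_fixed_function (M * q) (A.inertiaSubgroupIn ℚ) 1
      (D' - t₀ • D) hEfix (by rw [one_smul]; exact hE0)
  -- the quotient `f ^ t₀ g ^ p / f'` is a constant
  have hord : ∀ P : Place (AlgebraicClosure ℚ) ↥(FNbar (M * q)),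
      P.ord (f ^ t₀ * g ^ p / f') = 0 := by
    intro P
    have e1 := hEg P
    have e2 : ((D' - t₀ • D : Divisor.degZero (K := AlgebraicClosure ℚ)
        (F := ↥(FNbar (M * q)))) : Divisor (AlgebraicClosure ℚ) ↥(FNbar (M * q))) P
        = (D' : Divisor (AlgebraicClosure ℚ) ↥(FNbar (M * q))) P
          - t₀ * (D : Divisor (AlgebraicClosure ℚ) ↥(FNbar (M * q))) P := by
      show ((D' : Divisor (AlgebraicClosure ℚ) ↥(FNbar (M * q)))
        - t₀ • (D : Divisor (AlgebraicClosure ℚ) ↥(FNbar (M * q)))) P = _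
      rw [Finsupp.sub_apply, Finsupp.smul_apply, nsmul_eq_mul]
    rw [e2] at e1
    rw [div_eq_mul_inv, P.ord_mul (mul_ne_zero (pow_ne_zero _ hf0) (pow_ne_zero _ hg0))
        (inv_ne_zero hf'0), P.ord_mul (pow_ne_zero _ hf0) (pow_ne_zero _ hg0), P.ord_inv,
      H17.ord_pow, H17.ord_pow, ← hDf P, ← hD'f' P, ← e1]
    push_cast
    ring
  have hquot0 : f ^ t₀ * g ^ p / f' ≠ 0 :=
    div_ne_zero (mul_ne_zero (pow_ne_zero _ hf0) (pow_ne_zero _ hg0)) hf'0
  obtain ⟨c, hc⟩ := H36.const_of_ord_eq_zero (H95.stmt_HKA_isFF (M * q)) _ hquot0 hord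
  have hc0 : c ≠ 0 := by
    rintro rfl
    rw [map_zero] at hc
    exact hquot0 hc
  have hcF : algebraMap (AlgebraicClosure ℚ) ↥(FNbar (M * q)) c ≠ 0 := (map_ne_zero _).mpr hc0
  have hf' : algebraMap (AlgebraicClosure ℚ) ↥(FNbar (M * q)) c⁻¹ * f ^ t₀ * g ^ p = f' := by
    have h1 : f ^ t₀ * g ^ p = algebraMap (AlgebraicClosure ℚ) ↥(FNbar (M * q)) c * f' := by
      rw [← hc, div_mul_cancel₀ _ hf'0]
    rw [mul_assoc, h1, map_inv₀, ← mul_assoc, inv_mul_cancel₀ hcF, one_mul]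
  refine ⟨D, f, g, c⁻¹, t₀, hf0, hg0, inv_ne_zero hc0, hxD, hDf, hffix, ?_, htmod, ?_⟩
  · intro σ hσ
    exact hgfix ⟨σ, hσ⟩
  · intro k hk
    rw [hf']
    have h := hasSlope_of_units A q M a b hab hq ((ℓ : ℕ) + 1) f f' hU1 hU2 k hk
    rw [Nat.cast_add, Nat.cast_one] at h
    exact h

end Fermat.Agent.S43.CompEis.H9H
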