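/-
S43, leaf COMP-EIS (helper60): the final wiring.

`stmt_CompEisOdd_of_coord : Stmt_CE_CoordTame → Stmt_CompEisOdd`:
COMP-EIS in the form needed by S43 (`p ≥ 5`, `q` odd, `N` squarefree) from COORD at the tame
levels.  The other leaves are plugged in: HECKE (helper9), W-UP (helper80), DESC (helper57).

* tame levels (`q ≥ 5`, or `q = 3` and `2 ∣ M`): `compEisAt_core` with `M' = M`;
* `q = 3`, `M` odd: `compEisAt_core` with `M' = 2 M` (the slopes do not depend on the level by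
  W-UP, the divisibility of the orders of the reduced function descends by DESC).
-/
import Fermat.Agent.S43.CompEis.H60_Main
import Fermat.Agent.S43.CompEis.H9_Hecke
import Fermat.Agent.S43.CompEis.H80_WUp
import Fermat.Agent.S43.CompEis.H57_Desc

set_option autoImplicit false
set_option synthInstance.maxHeartbeats 400000
set_option maxHeartbeats 1000000
set_option linter.style.haveILetI false
set_option linter.unusedSectionVars false

noncomputable section

open AlgebraicCurve ModularCurve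

namespace Fermat.Agent.S43.CompEis.H60

open Fermat.Agent.BAD Fermat.Agent.S44 Fermat.Agent.S28.H73 Fermat.Agent.RED.H73
open Fermat.Agent.S43.BadQ Fermat.Agent.RED

/-- **COORD at the tame levels** (the form in which COMP-EIS consumes COORD). -/
def Stmt_CE_CoordTame : Prop :=
  ∀ (p : ℕ), p.Prime → 5 ≤ p →
    ∀ (q M : ℕ) (a b : ℤ) (hab : a * q + b * M = 1) (hq : q.Prime) [NeZero (M * q)], q ≠ p →
    ¬ q ∣ M → (5 ≤ q ∨ (q = 3 ∧ 2 ∣ M) ∨ (q = 2 ∧ 3 ∣ M)) →
    Stmt_CE_Coord p q M a b hab hq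

theorem lift_self {N : ℕ} (x : ↥(FNbar N)) : lift (dvd_refl N) x = x :=
  Subtype.ext (coe_lift _ x)

section Wire

variable {A : ValuationSubring (AlgebraicClosure ℚ)}
variable {q M : ℕ} {a b : ℤ} {hab : a * q + b * M = 1} {hq : q.Prime} [NeZero (M * q)]

/-- The slopes do not depend on the level. -/
theorem hasSlope_transfer (hW : Stmt_CE_WUp) {R : ℕ} {a' b' : ℤ}
    {hab' : a' * q + b' * ((M * R : ℕ) : ℤ) = 1} [NeZero (M * R * q)]
    {x : ↥(FNbar (M * q))} {y : ↥(FNbar (M * R * q))}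
    (hxy : (y : LaurentSeries (AlgebraicClosure ℚ)) = (x : LaurentSeries (AlgebraicClosure ℚ)))
    {k : ℤ} (h : HasSlope A q (M * R) a' b' hab' hq y k) : HasSlope A q M a b hab hq x k := by
  obtain ⟨c₁, c₂, h1, h2, h3⟩ := h
  refine ⟨c₁, c₂, (isGaussUnit_transfer (const_mul_transfer hxy c₁)).mp h1, ?_, h3⟩
  have hw := hW q M R a b hab a' b' hab' hq x y hxy
  exact (isGaussUnit_transfer (const_mul_transfer hw c₂)).mp h2

/-- COMP-EIS at a level with COORD. -/
theorem compEisAt_tame (p : ℕ) (hp : p.Prime) (hA : A.LiesOverPrime q)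
    (hC : Stmt_CE_Coord p q M a b hab hq) : CompEisAt p (M * q) A := by
  refine compEisAt_core (M' := M) (a' := a) (b' := b) (hab' := hab) p hp hA (dvd_refl _)
    (H9H.stmt_CE_Hecke q M a b hab hq) hC ?_ ?_
  · intro x k h
    rwa [lift_self] at h
  · intro f f' hff' h
    have hf : f' = f := Subtype.ext (Subtype.ext hff')
    subst hf
    exact h

include hab in
/-- COMP-EIS at the level `M q` from COORD at the level `M r q`, `r = 2` or `3`. -/
theorem compEisAt_desc (p : ℕ) (hp : p.Prime) (hp5 : 5 ≤ p) (hA : A.LiesOverPrime q)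
    (hsq : ¬ q ^ 2 ∣ M * q) (r : ℕ) (hr : r = 2 ∨ r = 3) (hrq : r ≠ q) {a' b' : ℤ}
    {hab' : a' * q + b' * ((M * r : ℕ) : ℤ) = 1} [NeZero (M * r * q)]
    (hC : Stmt_CE_Coord p q (M * r) a' b' hab' hq) : CompEisAt p (M * q) A := by
  refine compEisAt_core (M' := M * r) (a' := a') (b' := b') (hab' := hab') p hp hA
    ⟨r, by ring⟩ (H9H.stmt_CE_Hecke q M a b hab hq) hC ?_ ?_
  · intro x k h
    exact hasSlope_transfer H80.stmt_CE_WUp (coe_lift _ x) h
  · intro f f' hff' h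
    exact H57.stmt_CE_Desc' p hp hp5 q hq (M * q) (M * r * q) r hr hrq (by ring) hsq A hA
      f f' hff' h

end Wire

/-- COMP-EIS at the level `M q` from COORD at the tame level `M r q`, `r = 2` or `3`. -/
theorem compEisAt_of_mul (hC : Stmt_CE_CoordTame) (p : ℕ) (hp : p.Prime) (hp5 : 5 ≤ p)
    (q M : ℕ) [NeZero (M * q)] (hq : q.Prime) (hqp : q ≠ p) (hqM : ¬ q ∣ M)
    (hq2 : ¬ q ^ 2 ∣ M * q) (A : ValuationSubring (AlgebraicClosure ℚ))
    (hA : A.LiesOverPrime q) (a b : ℤ) (hab : a * q + b * M = 1)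
    (r : ℕ) (hr : r = 2 ∨ r = 3) (hrq : r ≠ q)
    (ht : 5 ≤ q ∨ (q = 3 ∧ 2 ∣ M * r) ∨ (q = 2 ∧ 3 ∣ M * r)) : CompEisAt p (M * q) A := by
  have hrp : r.Prime := by
    rcases hr with rfl | rfl
    · exact Nat.prime_two
    · exact Nat.prime_three
  have hqMr : ¬ q ∣ M * r := by
    intro h
    rcases (Nat.Prime.dvd_mul hq).mp h with h | h
    · exact hqM h
    · exact hrq ((Nat.prime_dvd_prime_iff_eq hq hrp).mp h).symm
  have hcop' : IsCoprime (q : ℤ) ((M * r : ℕ) : ℤ) :=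
    Nat.isCoprime_iff_coprime.2 ((Nat.Prime.coprime_iff_not_dvd hq).2 hqMr)
  obtain ⟨a', b', hab'⟩ := hcop'
  have hMq : M * q ≠ 0 := NeZero.ne (M * q)
  haveI : NeZero (M * r * q) := ⟨by
    intro h0
    apply hMq
    have h1 : M * r * q = r * (M * q) := by ring
    rw [h1] at h0
    exact (Nat.mul_eq_zero.mp h0).resolve_left hrp.ne_zero⟩
  exact compEisAt_desc (hab := hab) (hq := hq) p hp hp5 hA hq2 r hr hrq (hab' := hab')
    (hC p hp hp5 q (M * r) a' b' hab' hq hqp hqMr ht)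

/-- **COMP-EIS** (all levels `N`, `q ‖ N`, `p ≥ 5`) from COORD at the tame levels. -/
theorem stmt_CompEis_of_coord (hC : Stmt_CE_CoordTame) : Stmt_CompEis := by
  refine stmt_CompEis_iff.mpr ?_
  intro p hp hp5 N _ q hq hqp hqN hq2 A hA
  obtain ⟨M, rfl⟩ : ∃ M, N = M * q := ⟨N / q, (Nat.div_mul_cancel hqN).symm⟩
  have hqM : ¬ q ∣ M := by
    rintro ⟨k, rfl⟩
    exact hq2 ⟨k, by ring⟩
  have hcop : IsCoprime (q : ℤ) (M : ℤ) :=
    Nat.isCoprime_iff_coprime.2 ((Nat.Prime.coprime_iff_not_dvd hq).2 hqM)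
  obtain ⟨a, b, hab⟩ := hcop
  by_cases htame : 5 ≤ q ∨ (q = 3 ∧ 2 ∣ M) ∨ (q = 2 ∧ 3 ∣ M)
  · exact compEisAt_tame (hab := hab) (hq := hq) p hp hA
      (hC p hp hp5 q M a b hab hq hqp hqM htame)
  · have hq23 : q = 2 ∨ q = 3 := by
      have h2 := hq.two_le
      have h4 : q ≠ 4 := by
        rintro rfl
        exact absurd hq (by decide)
      have h5 : ¬ 5 ≤ q := fun h => htame (Or.inl h)
      omega
    rcases hq23 with h2 | h3
    · exact compEisAt_of_mul hC p hp hp5 q M hq hqp hqM hq2 A hA a b hab 3 (Or.inr rfl)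
        (by omega) (Or.inr (Or.inr ⟨h2, dvd_mul_left 3 M⟩))
    · exact compEisAt_of_mul hC p hp hp5 q M hq hqp hqM hq2 A hA a b hab 2 (Or.inl rfl)
        (by omega) (Or.inr (Or.inl ⟨h3, dvd_mul_left 2 M⟩))

/-- **COMP-EIS (the form needed by S43) from COORD at the tame levels.** -/
theorem stmt_CompEisOdd_of_coord (hC : Stmt_CE_CoordTame) : Stmt_CompEisOdd :=
  compEisOdd_of (stmt_CompEis_of_coord hC)

end Fermat.Agent.S43.CompEis.H60
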