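/-
S43, leaf COMP-EIS (helper60): **the leaf, unconditional.**

`stmt_CompEisOdd : S43.BadQ.Stmt_CompEisOdd` (the form of COMP-EIS needed by
`S43.BadQ.result_of_at`: `p ≥ 5`, `q` odd, `q ≠ p`, `N` squarefree).

Inputs: HECKE + NORM-VAL (helper9), W-UP (helper80), DESC (helper57), COORD (helper21, with
ARITH-0 helper11, CUSP helper69, TOT-MOD helper23, the modular datum helper91), NODE-RAD (helper28).
-/
import Fermat.Agent.S43.CompEis.H60_Final
import Fermat.Agent.S43.CompEis.H60_CoordWire

set_option autoImplicit false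

noncomputable section

namespace Fermat.Agent.S43.CompEis.H60

open Fermat.Agent.S43.BadQ

/-- **COORD at the tame levels.** -/
theorem stmt_CE_CoordTame : Stmt_CE_CoordTame :=
  fun p hp hp5 q M a b hab hq _ _ hqM ht => stmt_CE_Coord_tame p q M a b hab hq hp hp5 hqM ht

/-- **COMP-EIS**, all levels. -/
theorem stmt_CompEis : Stmt_CompEis :=
  stmt_CompEis_of_coord stmt_CE_CoordTame

/-- **COMP-EIS**, in the form needed by S43. -/
theorem stmt_CompEisOdd : Stmt_CompEisOdd :=
  stmt_CompEisOdd_of_coord stmt_CE_CoordTame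

end Fermat.Agent.S43.CompEis.H60
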