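/-
S43, leaf COMP-EIS (helper60): change of level.

A function of level `N` is a function of level `N'` for `N ∣ N'` (same `q`-expansion).  Gauss
units, inertia-fixedness, divisibility of the orders and slopes do not depend on the level.
-/
import Fermat.Agent.S43.CompEis.H60_Slope

set_option autoImplicit false
set_option synthInstance.maxHeartbeats 400000
set_option maxHeartbeats 400000
set_option linter.style.haveILetI false
set_option linter.unusedSectionVars false

noncomputable section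

open AlgebraicCurve ModularCurve

namespace Fermat.Agent.S43.CompEis.H60

open Fermat.Agent.BAD Fermat.Agent.S44 Fermat.Agent.S28.H73 Fermat.Agent.RED.H73
open Fermat.Agent.S43.BadQ Fermat.Agent.RED

section Transfer

variable {A : ValuationSubring (AlgebraicClosure ℚ)} {N N' : ℕ}
variable {x : ↥(FNbar N)} {y : ↥(FNbar N')}

theorem mem_gaussV_iff_coe (z : ↥(FNbar N)) :
    z ∈ gaussV A N ↔ (z : LaurentSeries (AlgebraicClosure ℚ)) ∈ gaussRingV A :=
  mem_gaussValSub_iff A (hasScale_laurentBaseChange A N) z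

theorem mem_gaussV_transfer
    (hxy : (y : LaurentSeries (AlgebraicClosure ℚ)) = (x : LaurentSeries (AlgebraicClosure ℚ))) :
    y ∈ gaussV A N' ↔ x ∈ gaussV A N := by
  rw [mem_gaussV_iff_coe, mem_gaussV_iff_coe, hxy]

theorem ne_zero_transfer
    (hxy : (y : LaurentSeries (AlgebraicClosure ℚ)) = (x : LaurentSeries (AlgebraicClosure ℚ))) :
    y ≠ 0 ↔ x ≠ 0 := by
  have hy : y = 0 ↔ (y : LaurentSeries (AlgebraicClosure ℚ)) = 0 :=
    (ZeroMemClass.coe_eq_zero (x := y)).symm
  have hx : x = 0 ↔ (x : LaurentSeries (AlgebraicClosure ℚ)) = 0 :=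
    (ZeroMemClass.coe_eq_zero (x := x)).symm
  rw [Ne, Ne, hy, hx, hxy]

theorem isGaussUnit_transfer
    (hxy : (y : LaurentSeries (AlgebraicClosure ℚ)) = (x : LaurentSeries (AlgebraicClosure ℚ))) :
    IsGaussUnit A N' y ↔ IsGaussUnit A N x := by
  have hinv : ((y⁻¹ : ↥(FNbar N')) : LaurentSeries (AlgebraicClosure ℚ))
      = ((x⁻¹ : ↥(FNbar N)) : LaurentSeries (AlgebraicClosure ℚ)) := by
    rw [IntermediateField.coe_inv, IntermediateField.coe_inv, hxy]
  unfold IsGaussUnit
  rw [ne_zero_transfer hxy, mem_gaussV_transfer hxy, mem_gaussV_transfer hinv]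

theorem galF_fixed_transfer
    (hxy : (y : LaurentSeries (AlgebraicClosure ℚ)) = (x : LaurentSeries (AlgebraicClosure ℚ)))
    (σ : GalQ) (h : galF N σ • x = x) : galF N' σ • y = y := by
  apply Subtype.ext
  have h1 := congrArg (Subtype.val : ↥(FNbar N) → LaurentSeries (AlgebraicClosure ℚ)) h
  rw [coe_arithmeticGalois_smul] at h1 ⊢
  rw [hxy]
  exact h1

theorem const_mul_transfer
    (hxy : (y : LaurentSeries (AlgebraicClosure ℚ)) = (x : LaurentSeries (AlgebraicClosure ℚ)))
    (c : AlgebraicClosure ℚ) :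
    ((algebraMap (AlgebraicClosure ℚ) ↥(FNbar N') c * y : ↥(FNbar N')) :
        LaurentSeries (AlgebraicClosure ℚ))
      = ((algebraMap (AlgebraicClosure ℚ) ↥(FNbar N) c * x : ↥(FNbar N)) :
        LaurentSeries (AlgebraicClosure ℚ)) := by
  rw [MulMemClass.coe_mul, MulMemClass.coe_mul, hxy, IntermediateField.coe_algebraMap_apply,
    IntermediateField.coe_algebraMap_apply]

theorem fullMono (h : N ∣ N') : modularFunctionFieldFull N ≤ modularFunctionFieldFull N' := by
  apply IntermediateField.adjoin.mono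
  rintro x ⟨d, hd0, hd, hx⟩
  exact ⟨d, hd0, hd.trans h, hx⟩

theorem barMono (h : N ∣ N') : FNbar N ≤ FNbar N' := by
  apply IntermediateField.adjoin.mono
  rintro _ ⟨x, hx, rfl⟩
  exact ⟨x, fullMono h hx, rfl⟩

/-- The function of level `N'` with the same `q`-expansion. -/
def lift (h : N ∣ N') : ↥(FNbar N) →ₐ[AlgebraicClosure ℚ] ↥(FNbar N') :=
  IntermediateField.inclusion (barMono h)

theorem coe_lift (h : N ∣ N') (z : ↥(FNbar N)) :
    ((lift h z : ↥(FNbar N')) : LaurentSeries (AlgebraicClosure ℚ))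
      = (z : LaurentSeries (AlgebraicClosure ℚ)) :=
  IntermediateField.coe_inclusion _ z

theorem lift_eq_of_coe (h : N ∣ N')
    (hxy : (y : LaurentSeries (AlgebraicClosure ℚ)) = (x : LaurentSeries (AlgebraicClosure ℚ))) :
    y = lift h x := by
  apply Subtype.ext
  rw [coe_lift, hxy]

end Transfer

section Res

variable {A : ValuationSubring (AlgebraicClosure ℚ)} {N : ℕ}

/-- The reduction of a Gauss unit is not zero. -/
theorem IsGaussUnit.gaussRes_ne_zero {φ : ↥(FNbar N)} (h : IsGaussUnit A N φ) :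
    gaussRes A N ⟨φ, h.mem⟩ ≠ 0 := by
  intro h0
  have h1 : gaussRes A N (⟨φ, h.mem⟩ * ⟨φ⁻¹, h.inv_mem⟩) = 1 := by
    have : (⟨φ, h.mem⟩ * ⟨φ⁻¹, h.inv_mem⟩ : ↥(gaussV A N)) = 1 := by
      apply Subtype.ext
      show φ * φ⁻¹ = 1
      exact mul_inv_cancel₀ h.1
    rw [this, map_one]
  rw [map_mul, h0, zero_mul] at h1
  exact zero_ne_one h1

end Res

end Fermat.Agent.S43.CompEis.H60
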